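import Fermat.Agent.FreyReducible.FreyLocal
import Fermat.Agent.FreyUnramified.Cubic
import Fermat.Agent.FreyUnramified.Recursion
import Mathlib.NumberTheory.Padics.PadicVal.Basic

/-!
# The Frey curve has no rational point of order `p`

At `2` the curve has multiplicative reduction with `p ∤ v₂(Δ)`. Writing the curve as
`y² = x³ + (D/4) x² + a₄ x` with `D = 1 + 4 a₂`, the abscissae of the multiples of a rational point
of order `p` satisfy `TorsionAbscissae`, and these relations alone imply `p ∣ v₂(a₄)`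
(`TorsionAbscissae.dvd`), whereas `v₂(a₄) = p v₂(b) - 4` and `v₂(Δ) = 2 v₂(a₄)`.
-/

set_option autoImplicit false

open WeierstrassCurve WeierstrassCurve.Affine

namespace Fermat.Agent.FreyReducible

open Fermat.Agent.GaloisBasics (Qbar GalQ)
open Fermat.Agent

section PadicLemmas

variable {p : ℕ} [Fact p.Prime]

/-- The valuation of a difference. -/
lemma padicValRat_sub_cases {z w : ℚ} (hz : z ≠ 0) (hw : w ≠ 0) (h : z - w ≠ 0) :
    (padicValRat p z < padicValRat p w → padicValRat p (z - w) = padicValRat p z) ∧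
    (padicValRat p w < padicValRat p z → padicValRat p (z - w) = padicValRat p w) ∧
    (padicValRat p z = padicValRat p w → padicValRat p w ≤ padicValRat p (z - w)) := by
  have h' : z + -w ≠ 0 := by rwa [← sub_eq_add_neg]
  have hneg : padicValRat p (-w) = padicValRat p w := padicValRat.neg w
  refine ⟨fun hlt => ?_, fun hlt => ?_, fun he => ?_⟩
  · rw [sub_eq_add_neg]
    exact padicValRat.add_eq_of_lt h' hz (neg_ne_zero.2 hw) (by rwa [hneg])
  · rw [sub_eq_add_neg, add_comm]
    rw [padicValRat.add_eq_of_lt (by rwa [add_comm]) (neg_ne_zero.2 hw) hz (by rwa [hneg]), hneg]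
  · have := padicValRat.min_le_padicValRat_add (p := p) h'
    rw [hneg, he, min_self] at this
    rwa [sub_eq_add_neg]

/-- A sum of terms of bigger valuation than the middle one. -/
lemma padicValRat_three {x y z : ℚ} (hy : y ≠ 0) (hx : x = 0 ∨ padicValRat p y < padicValRat p x)
    (hz : z = 0 ∨ padicValRat p y < padicValRat p z) :
    padicValRat p (x + y + z) = padicValRat p y ∧ x + y + z ≠ 0 := by
  have key : ∀ {a b : ℚ}, a ≠ 0 → (b = 0 ∨ padicValRat p a < padicValRat p b) →
      padicValRat p (a + b) = padicValRat p a ∧ a + b ≠ 0 := by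
    intro a b ha hb
    rcases hb with rfl | hlt
    · simp [ha]
    · rcases eq_or_ne b 0 with rfl | hb0
      · simp [ha]
      have hab : a + b ≠ 0 := fun h => by
        rw [eq_neg_of_add_eq_zero_left h, padicValRat.neg] at hlt
        exact lt_irrefl _ hlt
      exact ⟨padicValRat.add_eq_of_lt hab ha hb0 hlt, hab⟩
  obtain ⟨h1, h2⟩ := key hy hx
  rw [add_comm x y]
  obtain ⟨h3, h4⟩ := key h2 (hz.imp_right fun h => by rwa [h1])
  exact ⟨h3.trans h1, h4⟩

/-- The difference of two `2`-adic units has positive valuation. -/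
lemma one_le_padicValRat_sub_two {z w : ℚ} (hz : z ≠ 0) (hw : w ≠ 0) (h : z - w ≠ 0)
    (vz : padicValRat 2 z = 0) (vw : padicValRat 2 w = 0) : 1 ≤ padicValRat 2 (z - w) := by
  have odd_parts : ∀ {u : ℚ}, u ≠ 0 → padicValRat 2 u = 0 → Odd u.num ∧ Odd (u.den : ℤ) := by
    intro u hu hv
    rw [padicValRat_def] at hv
    have hnum : u.num ≠ 0 := Rat.num_ne_zero.2 hu
    have hodd : ¬ ((2 : ℤ) ∣ u.num) ∨ ¬ (2 ∣ u.den) := by
      by_contra hc
      rw [not_or, not_not, not_not] at hc
      have := Nat.dvd_gcd (Int.natCast_dvd.1 (by exact_mod_cast hc.1 : ((2 : ℕ) : ℤ) ∣ u.num)) hc.2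
      rw [u.reduced.gcd_eq_one] at this
      exact absurd this (by norm_num)
    have key : ¬ ((2 : ℤ) ∣ u.num) ∧ ¬ (2 ∣ u.den) := by
      rcases hodd with h1 | h1
      · refine ⟨h1, fun h2 => ?_⟩
        rw [padicValInt.eq_zero_of_not_dvd (by exact_mod_cast h1)] at hv
        have := one_le_padicValNat_of_dvd (p := 2) u.den_nz h2
        omega
      · refine ⟨fun h2 => ?_, h1⟩
        rw [padicValNat.eq_zero_of_not_dvd h1] at hv
        have : padicValInt 2 u.num ≠ 0 := by
          rw [Ne, padicValInt.eq_zero_iff]; push Not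
          exact ⟨by norm_num, hnum, by exact_mod_cast h2⟩
        omega
    refine ⟨Int.not_even_iff_odd.1 fun he => key.1 (even_iff_two_dvd.1 he), ?_⟩
    exact_mod_cast Nat.not_even_iff_odd.1 fun he => key.2 (even_iff_two_dvd.1 he)
  obtain ⟨hzn, hzd⟩ := odd_parts hz vz
  obtain ⟨hwn, hwd⟩ := odd_parts hw vw
  set n : ℤ := z.num * w.den - w.num * z.den with hn
  set d : ℤ := z.den * w.den with hd
  have hdne : d ≠ 0 := by rw [hd]; exact_mod_cast mul_ne_zero z.den_nz w.den_nz
  have e : (z - w) * (d : ℚ) = (n : ℚ) := by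
    rw [hd, hn]
    push_cast
    linear_combination (w.den : ℚ) * Rat.mul_den_eq_num z - (z.den : ℚ) * Rat.mul_den_eq_num w
  have heven : (2 : ℤ) ∣ n := even_iff_two_dvd.1 ((hzn.mul hwd).sub_odd (hwn.mul hzd))
  have hn0 : n ≠ 0 := by
    intro h0
    rw [h0, Int.cast_zero, mul_eq_zero] at e
    exact h (e.resolve_right (Int.cast_ne_zero.2 hdne))
  have hv := congrArg (padicValRat 2) e
  rw [padicValRat.mul h (Int.cast_ne_zero.2 hdne), padicValRat.of_int, padicValRat.of_int,
    padicValInt.eq_zero_of_not_dvd (p := 2) (z := d) (by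
      have := hzd.mul hwd
      rw [← hd] at this
      exact_mod_cast fun hc : (2 : ℤ) ∣ d => Int.not_even_iff_odd.2 this (even_iff_two_dvd.2 hc))]
    at hv
  have : padicValInt 2 n ≠ 0 := by
    rw [Ne, padicValInt.eq_zero_iff]; push Not
    exact ⟨by norm_num, hn0, by exact_mod_cast heven⟩
  omega

omit [Fact p.Prime] in
/-- Numbers of different valuations are different. -/
lemma sub_ne_zero_of_padicValRat_ne {z w : ℚ} (h : padicValRat p z ≠ padicValRat p w) :
    z - w ≠ 0 :=
  fun h0 => h (congrArg (padicValRat p) (sub_eq_zero.1 h0))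

/-- `v₂(4) = 2`. -/
lemma padicValRat_two_four : padicValRat 2 (4 : ℚ) = 2 := by
  rw [show (4 : ℚ) = ((2 : ℕ) : ℚ) ^ 2 by norm_num, padicValRat.pow,
    padicValRat.self (by norm_num)]
  norm_num

end PadicLemmas

/-! ### Abscissae of the multiples of a point of order `p` -/

/-- The relations between the abscissae `r k` of the multiples of a point of prime order `p` on
`y² = x³ + (D/4) x² + a x`, where `D` is a `2`-adic unit, `a` has positive valuation and the point
is rational and integral at `2`: doubling, the product of the abscissae of a sum and a difference,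
and symmetry. -/
structure TorsionAbscissae (p : ℕ) (D a : ℚ) (r : ℕ → ℚ) : Prop where
  prime : p.Prime
  five_le : 5 ≤ p
  D_ne_zero : D ≠ 0
  D_unit : padicValRat 2 D = 0
  a_ne_zero : a ≠ 0
  a_pos : 0 < padicValRat 2 a
  ne_zero : ∀ k, ¬ p ∣ k → r k ≠ 0
  nonneg : ∀ k, ¬ p ∣ k → 0 ≤ padicValRat 2 (r k)
  double : ∀ k, ¬ p ∣ k → r (2 * k) * (r k * (4 * r k ^ 2 + D * r k + 4 * a)) = (r k ^ 2 - a) ^ 2
  add_mul_sub : ∀ i j, j ≤ i → ¬ p ∣ i → ¬ p ∣ j → ¬ p ∣ i + j → ¬ p ∣ i - j →
    r (i + j) * r (i - j) * (r j - r i) ^ 2 = (r i * r j - a) ^ 2 ∧ r i ≠ r j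
  pred_eq : r (p - 1) = r 1

namespace TorsionAbscissae

variable {p : ℕ} {D a : ℚ} {r : ℕ → ℚ} (h : TorsionAbscissae p D a r)
include h

/-- Multiples by numbers below `5` of an index prime to `p` are prime to `p`. -/
lemma not_dvd_mul {m k : ℕ} (hm0 : 0 < m) (hm : m < 5) (hk : ¬ p ∣ k) : ¬ p ∣ m * k := fun hd =>
  hk ((h.prime.dvd_mul.1 hd).resolve_left fun h' => by
    have := Nat.le_of_dvd hm0 h'
    have := h.five_le
    omega)

/-- The middle term dominates the second factor of the doubling formula for `v(r k) < v(a) + 2`. -/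
lemma padicValRat_double_factor {k : ℕ} (hk : ¬ p ∣ k)
    (hlt : padicValRat 2 (r k) < padicValRat 2 a + 2) :
    padicValRat 2 (4 * r k ^ 2 + D * r k + 4 * a) = padicValRat 2 (r k) ∧
      4 * r k ^ 2 + D * r k + 4 * a ≠ 0 := by
  have hv := h.nonneg k hk
  have hz := h.ne_zero k hk
  have hy : padicValRat 2 (D * r k) = padicValRat 2 (r k) := by
    rw [padicValRat.mul h.D_ne_zero hz, h.D_unit, zero_add]
  obtain ⟨h1, h2⟩ := padicValRat_three (p := 2) (x := 4 * r k ^ 2) (z := 4 * a)
    (mul_ne_zero h.D_ne_zero hz) (Or.inr (by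
      rw [hy, padicValRat.mul (by norm_num) (pow_ne_zero 2 hz), padicValRat_two_four,
        padicValRat.pow]
      push_cast; linarith))
    (Or.inr (by
      rw [hy, padicValRat.mul (by norm_num) h.a_ne_zero, padicValRat_two_four]; linarith))
  exact ⟨h1.trans hy, h2⟩

/-- Every multiple lies over the node: otherwise the abscissa of its triple would not be
integral. -/
lemma padicValRat_ne_zero {k : ℕ} (hk : ¬ p ∣ k) : padicValRat 2 (r k) ≠ 0 := by
  intro hv
  have hk2 := h.not_dvd_mul (m := 2) (by norm_num) (by norm_num) hk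
  have hk3 := h.not_dvd_mul (m := 3) (by norm_num) (by norm_num) hk
  have hz := h.ne_zero k hk
  have hz2 := h.ne_zero _ hk2
  have ha := h.a_pos
  obtain ⟨hi1, hi2⟩ := h.padicValRat_double_factor hk (by linarith)
  have hsq : padicValRat 2 (r k ^ 2) = 0 := by rw [padicValRat.pow, hv, mul_zero]
  have hn : r k ^ 2 - a ≠ 0 :=
    sub_ne_zero_of_padicValRat_ne (p := 2) (by rw [hsq]; exact ha.ne)
  have hvn : padicValRat 2 (r k ^ 2 - a) = 0 := by
    rw [(padicValRat_sub_cases (pow_ne_zero 2 hz) h.a_ne_zero hn).1 (by rwa [hsq]), hsq]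
  have hv2 : padicValRat 2 (r (2 * k)) = 0 := by
    have := congrArg (padicValRat 2) (h.double k hk)
    rw [padicValRat.mul hz2 (mul_ne_zero hz hi2), padicValRat.mul hz hi2, hi1, hv,
      padicValRat.pow, hvn] at this
    linarith
  obtain ⟨e, hne⟩ := h.add_mul_sub (2 * k) k (by omega) hk2 hk
    (by rwa [show 2 * k + k = 3 * k by ring]) (by rwa [show 2 * k - k = k by omega])
  rw [show 2 * k + k = 3 * k by ring, show 2 * k - k = k by omega] at e
  have hdiff : r k - r (2 * k) ≠ 0 := sub_ne_zero.2 hne.symm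
  have hmul : padicValRat 2 (r (2 * k) * r k) = 0 := by
    rw [padicValRat.mul hz2 hz, hv, hv2, zero_add]
  have hm : r (2 * k) * r k - a ≠ 0 :=
    sub_ne_zero_of_padicValRat_ne (p := 2) (by rw [hmul]; exact ha.ne)
  have hvm : padicValRat 2 (r (2 * k) * r k - a) = 0 := by
    rw [(padicValRat_sub_cases (mul_ne_zero hz2 hz) h.a_ne_zero hm).1 (by rwa [hmul]), hmul]
  have := congrArg (padicValRat 2) e
  rw [padicValRat.mul (mul_ne_zero (h.ne_zero _ hk3) hz) (pow_ne_zero 2 hdiff),
    padicValRat.mul (h.ne_zero _ hk3) hz, padicValRat.pow, padicValRat.pow, hvm, hv] at this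
  have := one_le_padicValRat_sub_two hz hz2 hdiff hv hv2
  have := h.nonneg _ hk3
  push_cast at *
  linarith

/-- Every multiple lies strictly below the middle component: otherwise its double would not lie
over the node. -/
lemma padicValRat_lt {k : ℕ} (hk : ¬ p ∣ k) : padicValRat 2 (r k) < padicValRat 2 a := by
  have hk2 := h.not_dvd_mul (m := 2) (by norm_num) (by norm_num) hk
  refine lt_of_not_ge fun hge => h.padicValRat_ne_zero hk2 ?_
  have hz := h.ne_zero k hk
  have ha := h.a_pos
  have hlt : padicValRat 2 a < padicValRat 2 (r k ^ 2) := by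
    rw [padicValRat.pow]
    push_cast
    linarith
  have hn : r k ^ 2 - a ≠ 0 := sub_ne_zero_of_padicValRat_ne (p := 2) hlt.ne'
  have hvn : padicValRat 2 (r k ^ 2 - a) = padicValRat 2 a :=
    (padicValRat_sub_cases (pow_ne_zero 2 hz) h.a_ne_zero hn).2.1 hlt
  have hprodne : r k * (4 * r k ^ 2 + D * r k + 4 * a) ≠ 0 := by
    intro h0
    have := h.double k hk
    rw [h0, mul_zero] at this
    exact hn (pow_eq_zero_iff two_ne_zero |>.1 this.symm)
  obtain ⟨-, hin0⟩ := mul_ne_zero_iff.1 hprodne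
  have hin : padicValRat 2 a ≤ padicValRat 2 (4 * r k ^ 2 + D * r k + 4 * a) := by
    have hC : padicValRat 2 a ≤ padicValRat 2 (4 * a) := by
      rw [padicValRat.mul (by norm_num) h.a_ne_zero, padicValRat_two_four]; linarith
    have hB : padicValRat 2 a ≤ padicValRat 2 (D * r k) := by
      rw [padicValRat.mul h.D_ne_zero hz, h.D_unit, zero_add]; exact hge
    have hA : padicValRat 2 a ≤ padicValRat 2 (4 * r k ^ 2) := by
      rw [padicValRat.mul (by norm_num) (pow_ne_zero 2 hz), padicValRat_two_four]; linarith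
    rcases eq_or_ne (4 * r k ^ 2 + D * r k) 0 with h0 | h0
    · rw [h0, zero_add]; exact hC
    · exact le_trans (le_min ((le_min hA hB).trans (padicValRat.min_le_padicValRat_add h0)) hC)
        (padicValRat.min_le_padicValRat_add hin0)
  have := congrArg (padicValRat 2) (h.double k hk)
  rw [padicValRat.mul (h.ne_zero _ hk2) hprodne, padicValRat.mul hz hin0, padicValRat.pow,
    hvn] at this
  have := h.nonneg _ hk2
  push_cast at *
  linarith

/-- The valuations obey the component recursion, so `p v(r 1)` is an even multiple of `v(a)`. -/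
lemma exists_mul_eq : ∃ m : ℤ, (p : ℤ) * padicValRat 2 (r 1) = (m + m) * padicValRat 2 a := by
  have h5 := h.five_le
  have hlt : ∀ k, 1 ≤ k → k < p → ¬ p ∣ k := fun k h1 h2 hd => by
    have := Nat.le_of_dvd h1 hd; omega
  have hone : ¬ p ∣ 1 := hlt 1 le_rfl (by omega)
  have hpos : ∀ k, ¬ p ∣ k → 0 < padicValRat 2 (r k) := fun k hk =>
    lt_of_le_of_ne (h.nonneg k hk) (h.padicValRat_ne_zero hk).symm
  obtain ⟨m, hm⟩ := FreyUnramified.component_recursion p (by omega) (padicValRat 2 (r 1))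
    (padicValRat 2 a) (fun k => padicValRat 2 (r k))
    (fun k h1 h2 => ⟨hpos k (hlt k h1 h2), h.padicValRat_lt (hlt k h1 h2)⟩) rfl
    (congrArg (padicValRat 2) h.pred_eq)
    (by
      have hz := h.ne_zero 1 hone
      have h2 : r 2 ≠ 0 := h.ne_zero 2 (hlt 2 (by omega) (by omega))
      have hb := h.padicValRat_lt hone
      obtain ⟨hi1, hi2⟩ := h.padicValRat_double_factor hone (by linarith)
      have e := h.double 1 hone
      rw [show 2 * 1 = 2 from rfl] at e
      have hn : r 1 ^ 2 - a ≠ 0 := by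
        intro h0
        rw [h0, zero_pow two_ne_zero] at e
        exact mul_ne_zero h2 (mul_ne_zero hz hi2) e
      obtain ⟨g1, g2, g3⟩ := padicValRat_sub_cases (p := 2) (pow_ne_zero 2 hz) h.a_ne_zero hn
      have hsq : padicValRat 2 (r 1 ^ 2) = padicValRat 2 (r 1) + padicValRat 2 (r 1) := by
        rw [padicValRat.pow]; push_cast; ring
      rw [hsq] at g1 g2 g3
      have hv := congrArg (padicValRat 2) e
      rw [padicValRat.mul h2 (mul_ne_zero hz hi2), padicValRat.mul hz hi2, hi1,
        padicValRat.pow] at hv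
      push_cast at hv
      exact ⟨padicValRat 2 (r 1 ^ 2 - a), by linarith, g1, g2, g3⟩)
    (by
      intro k hk hkp
      have hk0 := hlt k (by omega) (by omega)
      have hk1 := hlt (k + 1) (by omega) (by omega)
      have hk2 := hlt (k - 1) (by omega) (by omega)
      obtain ⟨e, hrne⟩ := h.add_mul_sub k 1 (by omega) hk0 hone hk1 hk2
      have hz := h.ne_zero _ hk0
      have hz1 := h.ne_zero 1 hone
      have hzz := mul_ne_zero (h.ne_zero _ hk1) (h.ne_zero _ hk2)
      have hd0 : r k - r 1 ≠ 0 := sub_ne_zero.2 hrne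
      have hd1 : r 1 - r k ≠ 0 := sub_ne_zero.2 hrne.symm
      have hn : r k * r 1 - a ≠ 0 := by
        intro h0
        rw [h0, zero_pow two_ne_zero] at e
        exact mul_ne_zero hzz (pow_ne_zero 2 hd1) e
      obtain ⟨g1, g2, g3⟩ := padicValRat_sub_cases (p := 2) (mul_ne_zero hz hz1) h.a_ne_zero hn
      obtain ⟨i1, i2, i3⟩ := padicValRat_sub_cases (p := 2) hz hz1 hd0
      rw [padicValRat.mul hz hz1] at g1 g2 g3
      have hv := congrArg (padicValRat 2) e
      rw [padicValRat.mul hzz (pow_ne_zero 2 hd1),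
        padicValRat.mul (h.ne_zero _ hk1) (h.ne_zero _ hk2), padicValRat.pow, padicValRat.pow,
        ← neg_sub (r k) (r 1), padicValRat.neg] at hv
      push_cast at hv
      exact ⟨_, _, by linarith, g1, g2, g3, i1, i2, i3⟩)
  exact ⟨m, by rwa [smul_eq_mul, smul_eq_mul] at hm⟩

/-- The prime `p` divides the valuation of `a`: otherwise `v(r 1)` would be a multiple of `v(a)`,
against `0 < v(r 1) < v(a)`. -/
lemma dvd : (p : ℤ) ∣ padicValRat 2 a := by
  by_contra hpa
  have hone : ¬ p ∣ 1 := h.prime.not_dvd_one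
  obtain ⟨m, hm⟩ := h.exists_mul_eq
  have hpI : Prime (p : ℤ) := Nat.prime_iff_prime_int.1 h.prime
  obtain ⟨t, ht⟩ : (p : ℤ) ∣ m + m := (hpI.dvd_mul.1 ⟨_, hm.symm⟩).resolve_right hpa
  rw [ht, mul_assoc] at hm
  have hbt := mul_left_cancel₀ hpI.ne_zero hm
  have hpos := lt_of_le_of_ne (h.nonneg 1 hone) (h.padicValRat_ne_zero hone).symm
  have hbd := h.padicValRat_lt hone
  rw [hbt] at hpos hbd
  rcases le_or_gt t 0 with ht0 | ht0 <;> nlinarith

end TorsionAbscissae

/-! ### The Frey curve -/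

variable (P : FreyPackage)

/-- `v₂(a₄) = p v₂(b) - 4`, so it is positive and prime to `p`. -/
lemma padicValInt_a₄ : ∃ k : ℕ, (padicValInt 2 P.freyCurveInt.a₄ : ℤ) + 4 = (P.p : ℤ) * k ∧
    0 < padicValInt 2 P.freyCurveInt.a₄ := by
  refine ⟨padicValInt 2 P.b, ?_, ?_⟩
  · have h := congrArg (padicValRat 2) (congrArg (Int.cast (R := ℚ)) (FreyModel.sixteen_mul_a₄ P))
    push_cast at h
    rw [padicValRat.mul (by norm_num) (Int.cast_ne_zero.2 (freyCurveInt_a₄_ne_zero P)),
      padicValRat.mul (neg_ne_zero.2 (pow_ne_zero _ (Int.cast_ne_zero.2 P.ha0)))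
        (pow_ne_zero _ (Int.cast_ne_zero.2 P.hb0)),
      padicValRat.neg, padicValRat.pow, padicValRat.pow,
      padicValRat.of_int, padicValRat.of_int, padicValRat.of_int,
      padicValInt.eq_zero_of_not_dvd (z := P.a) (by exact_mod_cast FreyModel.not_two_dvd_a P),
      show (16 : ℚ) = ((2 : ℕ) : ℚ) ^ 4 by norm_num, padicValRat.pow,
      padicValRat.self (by norm_num)] at h
    push_cast at h ⊢
    linarith
  · rw [Nat.pos_iff_ne_zero, Ne, padicValInt.eq_zero_iff]
    push Not
    refine ⟨by norm_num, freyCurveInt_a₄_ne_zero P, ?_⟩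
    have h1 := (FreyModel.thirtyTwo_dvd_pow_b P).mul_left (-(P.a ^ P.p))
    rw [← FreyModel.sixteen_mul_a₄ P] at h1
    omega

noncomputable section

/-- The Frey curve as `y² = x³ + ((1 + 4a₂)/4) x² + a₄ x`, with coordinates on its points. -/
def freyCubic : FreyUnramified.Cubic Qbar (freyBar P).Point :=
  FreyUnramified.ofWeierstrass (freyBar P) two_ne_zero 0
    ((1 + 4 * (P.freyCurveInt.a₂ : Qbar)) / 4) (P.freyCurveInt.a₄ : Qbar)
    (by rw [freyBar_a₁, freyBar_a₂]; ring)
    (by rw [freyBar_a₁, freyBar_a₃, freyBar_a₄]; ring)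
    (by rw [freyBar_a₁, freyBar_a₃, freyBar_a₄, freyBar_a₆]; ring)

/-- The abscissa commutes with the Galois action. -/
lemma freyCubic_X_smul (σ : GalQ) (R : (freyBar P).Point) :
    (freyCubic P).X (σ • R : ((P.freyCurve : Affine ℚ)⁄Qbar).Point) = σ ((freyCubic P).X R) := by
  cases R with
  | zero => exact (map_zero σ).symm
  | some x y h =>
    show σ x - 0 = σ (x - 0)
    rw [sub_zero, sub_zero]

/-- The abscissa of a nonzero `p`-torsion point is integral at the places over `2`. -/
lemma valuation_freyCubic_X_le_one {A : ValuationSubring Qbar} (hA : A.LiesOverPrime 2)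
    {R : (freyBar P).Point} (hRp : P.p • R = 0) (hR : R ≠ 0) :
    A.valuation ((freyCubic P).X R) ≤ 1 := by
  obtain ⟨f, -, hlead, hroot⟩ := (torsionInput_frey P).poly
  cases R with
  | zero => exact absurd rfl hR
  | some x y h =>
    show A.valuation (x - 0) ≤ 1
    rw [sub_zero]
    refine valuation_root_le_one (f := f) ?_ (hroot x y h hRp)
    rw [hlead, Int.cast_natCast]
    exact valuation_natCast_prime Nat.prime_two P.pp (by have := P.hp5; omega) hA

/-- A rational number integral at a place over `2` has nonnegative `2`-adic valuation. -/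
lemma zero_le_padicValRat_two {A : ValuationSubring Qbar} (hA : A.LiesOverPrime 2) {r : ℚ}
    (hr : A.valuation (r : Qbar) ≤ 1) : 0 ≤ padicValRat 2 r := by
  by_contra hneg
  have hden : 2 ∣ r.den := by
    by_contra h
    rw [padicValRat_def, padicValNat.eq_zero_of_not_dvd h] at hneg
    exact hneg (by simp)
  have hmul : (r : Qbar) * (r.den : Qbar) = (r.num : Qbar) := by
    exact_mod_cast congrArg (Rat.cast (K := Qbar)) (Rat.mul_den_eq_num r)
  have hnum : A.valuation (r.num : Qbar) = 1 :=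
    valuation_intCast_of_not_dvd Nat.prime_two hA fun h => (Nat.prime_two).not_dvd_one (by
      rw [← r.reduced.gcd_eq_one]; exact Nat.dvd_gcd (Int.natCast_dvd.1 h) hden)
  obtain ⟨d, hd⟩ := hden
  have : A.valuation (r.num : Qbar) < 1 := by
    rw [← hmul, hd, Nat.cast_mul]
    exact v_mul_lt_right hr (v_mul_lt_left hA ((A.valuation_le_one_iff _).2 (natCast_mem A d)))
  exact this.ne hnum

/-- The abscissae of the multiples of a Galois fixed point of order `p` form a rational sequence
satisfying `TorsionAbscissae`. -/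
lemma exists_torsionAbscissae (Q : Tors (P.freyCurve : Affine ℚ) P.p) (hQ : Q ≠ 0)
    (hfix : ∀ σ : GalQ, σ • Q = Q) :
    ∃ r, TorsionAbscissae P.p (1 + 4 * (P.freyCurveInt.a₂ : ℚ)) P.freyCurveInt.a₄ r := by
  obtain ⟨A, hA⟩ := GaloisBasics.exists_liesOverPrime Nat.prime_two
  set C := freyCubic P
  let pt : (freyBar P).Point := (Q : ((P.freyCurve : Affine ℚ)⁄Qbar).Point)
  have hpt0 : pt ≠ 0 := fun h => hQ (Subtype.ext h)
  have hptp : P.p • pt = 0 := nsmul_tors Q
  have hne : ∀ k : ℕ, ¬ P.p ∣ k → k • pt ≠ 0 := by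
    intro k hk h
    have := Fact.mk P.pp
    exact hk (addOrderOf_eq_prime hptp hpt0 ▸ addOrderOf_dvd_of_nsmul_eq_zero h)
  have hrat : ∀ k : ℕ, ∃ r : ℚ, (r : Qbar) = C.X (k • pt) := by
    intro k
    obtain ⟨r, hr⟩ := exists_rat_of_fixed (z := C.X (k • pt)) fun σ => by
      rw [← freyCubic_X_smul P σ (k • pt)]
      refine congrArg C.X ?_
      exact (map_nsmul (DistribSMul.toAddMonoidHom ((P.freyCurve : Affine ℚ)⁄Qbar).Point σ) k
        pt).trans (congrArg (k • ·) (congrArg Subtype.val (hfix σ)))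
    exact ⟨r, by rw [← hr, eq_ratCast]⟩
  choose r hr using hrat
  have hadd : ∀ k : ℕ, ¬ P.p ∣ k → k • pt + k • pt ≠ 0 := fun k hk => by
    rw [← add_nsmul, ← two_mul]
    refine hne _ fun h => hk ((P.pp.dvd_mul.1 h).resolve_left fun h' => ?_)
    have := Nat.le_of_dvd (by norm_num) h'
    have := P.hp5; omega
  have hD : (1 + 4 * (P.freyCurveInt.a₂ : ℚ)) = ((1 + 4 * P.freyCurveInt.a₂ : ℤ) : ℚ) := by
    push_cast; ring
  refine ⟨r, ⟨P.pp, P.hp5, ?_, ?_, Int.cast_ne_zero.2 (freyCurveInt_a₄_ne_zero P), ?_,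
    fun k hk h0 => ?_, fun k hk => zero_le_padicValRat_two hA ?_, fun k hk => ?_,
    fun i j hji hi hj hadd' hsub => ?_, ?_⟩⟩
  · rw [hD, Int.cast_ne_zero]; omega
  · rw [hD, padicValRat.of_int, padicValInt.eq_zero_of_not_dvd (by omega), Nat.cast_zero]
  · obtain ⟨-, -, hpos⟩ := padicValInt_a₄ P
    rw [padicValRat.of_int]
    exact_mod_cast hpos
  · refine C.Y_ne_zero (hne k hk) (hadd k hk) (pow_eq_zero_iff two_ne_zero |>.1 ?_)
    rw [C.eqn _ (hne k hk), ← hr, h0, Rat.cast_zero]
    ring
  · rw [hr]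
    exact valuation_freyCubic_X_le_one P hA
      (by rw [← mul_nsmul, mul_comm, mul_nsmul, hptp, nsmul_zero]) (hne k hk)
  · have e : C.X (k • pt + k • pt) * _ = _ := C.X_two_mul (hne k hk) (hadd k hk)
    rw [C.eqn _ (hne k hk), ← add_nsmul, ← two_mul, ← hr, ← hr] at e
    have e' : ((r (2 * k) * (4 * (r k ^ 3 + (1 + 4 * (P.freyCurveInt.a₂ : ℚ)) / 4 * r k ^ 2 +
        P.freyCurveInt.a₄ * r k)) : ℚ) : Qbar) =
        (((r k ^ 2 - P.freyCurveInt.a₄) ^ 2 : ℚ) : Qbar) := by push_cast; exact e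
    linear_combination Rat.cast_injective e'
  · have eplus : i • pt + j • pt = (i + j) • pt := (add_nsmul pt i j).symm
    have eminus : i • pt - j • pt = (i - j) • pt := by
      rw [sub_eq_iff_eq_add, ← add_nsmul, Nat.sub_add_cancel hji]
    have hX : C.X (i • pt) ≠ C.X (j • pt) := by
      intro h
      rcases C.eq_or_eq_neg (hne i hi) (hne j hj) h with h' | h'
      · exact hne _ hsub (by rw [← eminus, h', sub_self])
      · exact hne _ hadd' (by rw [← eplus, h', neg_add_cancel])
    refine ⟨Rat.cast_injective (α := Qbar) ?_, fun h => hX (by rw [← hr, h, hr])⟩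
    have e := C.X_add_mul_sub (hne i hi) (hne j hj) hX
    rw [eplus, eminus, ← hr, ← hr, ← hr, ← hr] at e
    push_cast
    exact e
  · refine Rat.cast_injective (α := Qbar) ?_
    have e : (P.p - 1) • pt = -pt := eq_neg_of_add_eq_zero_left (by
      rw [← succ_nsmul, Nat.sub_add_cancel P.pp.one_le, hptp])
    rw [hr, hr, one_nsmul, e, C.X_neg]

/-- No point of order `p` on the Frey curve is fixed by the whole Galois group. -/
theorem no_fixed_torsion_point (Q : Tors (P.freyCurve : Affine ℚ) P.p) (hQ : Q ≠ 0)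
    (hfix : ∀ σ : GalQ, σ • Q = Q) : False := by
  obtain ⟨r, hr⟩ := exists_torsionAbscissae P Q hQ hfix
  obtain ⟨k, hk, -⟩ := padicValInt_a₄ P
  have hd := hr.dvd
  rw [padicValRat.of_int] at hd
  have h4 : (P.p : ℤ) ∣ 4 := by
    have := dvd_sub (dvd_mul_right (P.p : ℤ) k) hd
    rwa [← hk, add_sub_cancel_left] at this
  have := Int.le_of_dvd (by norm_num) h4
  have := P.hp5
  omega

end

end Fermat.Agent.FreyReducible
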