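import Fermat.Agent.FreyReducible.Chord

/-!
# Inertia and the smooth locus of the reduction

`W` is a Weierstrass curve over a valued field with a marked two-torsion point `(x₀, y₀)`.

If `σ` fixes the coefficients and acts trivially on the residue field, then `σP - P` reduces to
the origin for every point `P` with smooth reduction (`inFormal_sub_self`), and, when the curve
has good reduction or has a node at `(x₀, y₀)`, `σP - P` has smooth reduction for every point `P`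
(`NodeAt.smoothRed_sub_self`, `smoothRed_of_good`).
-/

set_option autoImplicit false

open WeierstrassCurve WeierstrassCurve.Affine

namespace Fermat.Agent.FreyReducible

variable {F : Type*} [Field F] {Γ : Type*} [LinearOrderedCommGroupWithZero Γ]
  (v : Valuation F Γ)

/-- A field endomorphism preserving the valuation and acting trivially on the residue field. -/
structure Inertial (σ : F →+* F) : Prop where
  v_map : ∀ x, v (σ x) = v x
  sub_lt : ∀ x, v x ≤ 1 → v (σ x - x) < 1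

variable {v} {W : Affine F}

/-- `σ` fixes the coefficients of the curve. -/
structure FixesCoeffs (σ : F →+* F) (W : Affine F) : Prop where
  h₁ : σ W.a₁ = W.a₁
  h₂ : σ W.a₂ = W.a₂
  h₃ : σ W.a₃ = W.a₃
  h₄ : σ W.a₄ = W.a₄
  h₆ : σ W.a₆ = W.a₆

/-- `Q` is the image of `P` under `σ`, coordinatewise. -/
def IsImage (σ : F →+* F) : W.Point → W.Point → Prop
  | .zero, .zero => True
  | .some x y _, .some x' y' _ => σ x = x' ∧ σ y = y'
  | _, _ => False

/-- The constants attached to a node `(x₀, y₀)` which lifts to an exact point of order two. -/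
structure TwoTorsionAt (v : Valuation F Γ) (W : Affine F) (x₀ y₀ : F) : Prop where
  integral : IntegralCoeffs v W
  hx₀ : v x₀ ≤ 1
  hy₀ : v y₀ ≤ 1
  equation : W.Equation x₀ y₀
  polyY : 2 * y₀ + W.a₁ * x₀ + W.a₃ = 0

/-- Coefficient of `X²` after moving `(x₀, y₀)` to the origin. -/
def coA (W : Affine F) (x₀ : F) : F := W.a₂ + 3 * x₀

/-- Coefficient of `X` after moving `(x₀, y₀)` to the origin. -/
def coB (W : Affine F) (x₀ y₀ : F) : F := 3 * x₀ ^ 2 + 2 * W.a₂ * x₀ + W.a₄ - W.a₁ * y₀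

/-- Multiplicative reduction with node at the two-torsion point `(x₀, y₀)`. -/
structure NodeAt (v : Valuation F Γ) (W : Affine F) (x₀ y₀ : F) : Prop
    extends TwoTorsionAt v W x₀ y₀ where
  hB : v (coB W x₀ y₀) < 1
  hB0 : coB W x₀ y₀ ≠ 0
  hD : v (W.a₁ ^ 2 + 4 * coA W x₀) = 1

section

variable {x₀ y₀ : F}

/-- The equation in coordinates centred at `(x₀, y₀)`. -/
lemma TwoTorsionAt.translated (h : TwoTorsionAt v W x₀ y₀) {x y : F} (e : W.Equation x y) :
    (y - y₀) ^ 2 + W.a₁ * (x - x₀) * (y - y₀) =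
      (x - x₀) ^ 3 + coA W x₀ * (x - x₀) ^ 2 + coB W x₀ y₀ * (x - x₀) := by
  have e₀ := (equation_iff _ _).1 h.equation
  rw [equation_iff] at e
  have h3 := h.polyY
  simp only [coA, coB]
  linear_combination e - e₀ - (y - y₀) * h3

lemma TwoTorsionAt.v_A_le (h : TwoTorsionAt v W x₀ y₀) : v (coA W x₀) ≤ 1 :=
  v.map_add_le h.integral.h₂ (v_mul_le (v_ofNat_le 3) h.hx₀)

/-- Singular reduction only happens over the root of `X (X² - B)`. -/
lemma TwoTorsionAt.v_singular (h : TwoTorsionAt v W x₀ y₀) {x y : F} (e : W.Equation x y)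
    (hx : v x ≤ 1) (hy : v (2 * y + W.a₁ * x + W.a₃) < 1)
    (hfx : v (W.a₁ * y - (3 * x ^ 2 + 2 * W.a₂ * x + W.a₄)) < 1) :
    v ((x - x₀) * ((x - x₀) ^ 2 - coB W x₀ y₀)) < 1 := by
  have e' := h.translated e
  have key : (x - x₀) * ((x - x₀) ^ 2 - coB W x₀ y₀) =
      -((x - x₀) * (W.a₁ * y - (3 * x ^ 2 + 2 * W.a₂ * x + W.a₄)) +
        (y - y₀) * (2 * y + W.a₁ * x + W.a₃)) := by
    have h3 := h.polyY
    simp only [coA, coB] at e' ⊢
    linear_combination 2 * e' + (y - y₀) * h3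
  rw [key, v.map_neg]
  exact v.map_add_lt (v_mul_lt_right (v.map_sub_le hx h.hx₀) hfx)
    (v_mul_lt_right (v.map_sub_le (v_Y_le h.integral e hx) h.hy₀) hy)

/-- An integral point reduces to a smooth or to a singular point. -/
lemma smooth_or_singular (hW : IntegralCoeffs v W) {x y : F} (h : W.Nonsingular x y)
    (hx : v x ≤ 1) : SmoothRed v (Point.some x y h) ∨
      (v (2 * y + W.a₁ * x + W.a₃) < 1 ∧
        v (W.a₁ * y - (3 * x ^ 2 + 2 * W.a₂ * x + W.a₄)) < 1) := by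
  have hy := v_Y_le hW h.1 hx
  have h1 : v (2 * y + W.a₁ * x + W.a₃) ≤ 1 :=
    v.map_add_le (v.map_add_le (v_mul_le (v_ofNat_le 2) hy) (v_mul_le hW.h₁ hx)) hW.h₃
  have h2 : v (W.a₁ * y - (3 * x ^ 2 + 2 * W.a₂ * x + W.a₄)) ≤ 1 :=
    v.map_sub_le (v_mul_le hW.h₁ hy) (v.map_add_le (v.map_add_le
      (v_mul_le (v_ofNat_le 3) (v_pow_le hx 2))
      (v_mul_le (v_mul_le (v_ofNat_le 2) hW.h₂) hx)) hW.h₄)
  rcases h1.lt_or_eq with h1 | h1
  · rcases h2.lt_or_eq with h2 | h2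
    · exact Or.inr ⟨h1, h2⟩
    · exact Or.inl (Or.inr (Or.inr h2))
  · exact Or.inl (Or.inr (Or.inl h1))

/-- Away from the node the reduction is smooth. -/
lemma NodeAt.smoothRed_of_ne (h : NodeAt v W x₀ y₀) {x y : F} (hP : W.Nonsingular x y)
    (hX : v (x - x₀) = 1) : SmoothRed v (Point.some x y hP) := by
  have hx : v x ≤ 1 := by
    simpa using v.map_add_le hX.le h.hx₀
  rcases smooth_or_singular h.integral hP hx with h' | ⟨h1, h2⟩
  · exact h'
  · have := h.toTwoTorsionAt.v_singular hP.1 hx h1 h2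
    rw [map_mul, hX, one_mul] at this
    have h3 : v ((x - x₀) ^ 2) = 1 := by rw [map_pow, hX, one_pow]
    rw [v_eq_one_of_sub_lt h3 (by rw [sub_sub_cancel_left, v.map_neg]; exact h.hB)] at this
    exact absurd this (lt_irrefl _)

/-- Good reduction: every point has smooth reduction. -/
theorem smoothRed_of_good (h : TwoTorsionAt v W x₀ y₀) (hB : v (coB W x₀ y₀) = 1)
    (hΔ : v ((W.a₁ ^ 2 + 4 * coA W x₀) ^ 2 - 64 * coB W x₀ y₀) = 1) (P : W.Point) :
    SmoothRed v P := by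
  cases P with
  | zero => trivial
  | some x y hP =>
  rcases le_or_gt (v x) 1 with hx | hx
  swap; · exact Or.inl hx
  rcases smooth_or_singular h.integral hP hx with h' | ⟨h1, h2⟩
  · exact h'
  exfalso
  have e := h.translated hP.1
  have hsing := h.v_singular hP.1 hx h1 h2
  have hY : 2 * y + W.a₁ * x + W.a₃ = 2 * (y - y₀) + W.a₁ * (x - x₀) := by
    linear_combination h.polyY
  have hX' : W.a₁ * y - (3 * x ^ 2 + 2 * W.a₂ * x + W.a₄) = W.a₁ * (y - y₀) -
      (3 * (x - x₀) ^ 2 + 2 * coA W x₀ * (x - x₀) + coB W x₀ y₀) := by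
    simp only [coA, coB]; ring
  rw [hY] at h1
  rw [hX'] at h2
  have hXle : v (x - x₀) ≤ 1 := v.map_sub_le hx h.hx₀
  have hYle : v (y - y₀) ≤ 1 := v.map_sub_le (v_Y_le h.integral hP.1 hx) h.hy₀
  have hAle := h.v_A_le
  rcases hXle.lt_or_eq with hX1 | hX1
  · -- then `Y ≡ 0` and `B ≡ a₁ Y ≡ 0`
    have hsq : v ((y - y₀) ^ 2) < 1 := by
      rw [show (y - y₀) ^ 2 = (x - x₀) * ((x - x₀) ^ 2 + coA W x₀ * (x - x₀) + coB W x₀ y₀
        - W.a₁ * (y - y₀)) by linear_combination e]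
      exact v_mul_lt_left hX1 (v.map_sub_le (v.map_add_le (v.map_add_le (v_pow_le hXle 2)
        (v_mul_le hAle hXle)) hB.le) (v_mul_le h.integral.h₁ hYle))
    have hY1 : v (y - y₀) < 1 := by
      by_contra hcon
      rw [map_pow, le_antisymm hYle (not_lt.1 hcon), one_pow] at hsq
      exact lt_irrefl _ hsq
    have : v (coB W x₀ y₀) < 1 := by
      rw [show coB W x₀ y₀ = W.a₁ * (y - y₀) - (3 * (x - x₀) + 2 * coA W x₀) * (x - x₀) -
        (W.a₁ * (y - y₀) - (3 * (x - x₀) ^ 2 + 2 * coA W x₀ * (x - x₀) + coB W x₀ y₀)) by ring]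
      exact v.map_sub_lt (v.map_sub_lt (v_mul_lt_right h.integral.h₁ hY1)
        (v_mul_lt_right (v.map_add_le (v_mul_le (v_ofNat_le 3) hXle)
          (v_mul_le (v_ofNat_le 2) hAle)) hX1)) h2
    exact this.ne hB
  · -- then `X² ≡ B` and `D X ≡ -8 B`
    rw [map_mul, hX1, one_mul] at hsing
    have hDX : v ((W.a₁ ^ 2 + 4 * coA W x₀) * (x - x₀) + 8 * coB W x₀ y₀) < 1 := by
      have hprod : v ((x - x₀) * ((W.a₁ ^ 2 + 4 * coA W x₀) * (x - x₀) + 8 * coB W x₀ y₀)) < 1 := by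
        rw [show (x - x₀) * ((W.a₁ ^ 2 + 4 * coA W x₀) * (x - x₀) + 8 * coB W x₀ y₀) =
          (2 * (y - y₀) + W.a₁ * (x - x₀)) * (2 * (y - y₀) + W.a₁ * (x - x₀))
            - 4 * (x - x₀) * ((x - x₀) ^ 2 - coB W x₀ y₀) by linear_combination (-4) * e]
        exact v.map_sub_lt (v_mul_lt_left h1 h1.le)
          (v_mul_lt_right (v_mul_le (v_ofNat_le 4) hXle) hsing)
      rwa [map_mul, hX1, one_mul] at hprod
    have : v (coB W x₀ y₀ * ((W.a₁ ^ 2 + 4 * coA W x₀) ^ 2 - 64 * coB W x₀ y₀)) < 1 := by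
      rw [show coB W x₀ y₀ * ((W.a₁ ^ 2 + 4 * coA W x₀) ^ 2 - 64 * coB W x₀ y₀) =
        ((W.a₁ ^ 2 + 4 * coA W x₀) * (x - x₀) + 8 * coB W x₀ y₀) *
          ((W.a₁ ^ 2 + 4 * coA W x₀) * (x - x₀) - 8 * coB W x₀ y₀) -
        (W.a₁ ^ 2 + 4 * coA W x₀) ^ 2 * ((x - x₀) ^ 2 - coB W x₀ y₀) by ring]
      have hDle : v (W.a₁ ^ 2 + 4 * coA W x₀) ≤ 1 :=
        v.map_add_le (v_pow_le h.integral.h₁ 2) (v_mul_le (v_ofNat_le 4) hAle)
      exact v.map_sub_lt (v_mul_lt_left hDX (v.map_sub_le (v_mul_le hDle hXle)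
        (v_mul_le (v_ofNat_le 8) hB.le))) (v_mul_lt_right (v_pow_le hDle 2) hsing)
    rw [map_mul, hB, hΔ, one_mul] at this
    exact lt_irrefl _ this

end

variable [DecidableEq F] {σ : F →+* F}

/-- Inertia moves points with smooth reduction inside the points reducing to the origin. -/
theorem inFormal_sub_self (hW : IntegralCoeffs v W) (hσ : Inertial v σ) {P Q : W.Point}
    (hPQ : IsImage σ P Q) (hP : SmoothRed v P) : InFormal v (Q - P) := by
  rw [← neg_sub]
  refine InFormal.neg ?_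
  cases P with
  | zero => cases Q with
    | zero => rw [sub_self]; trivial
    | some x' y' h' => exact hPQ.elim
  | some x y h => cases Q with
    | zero => exact hPQ.elim
    | some x' y' h' =>
      obtain ⟨rfl, rfl⟩ := hPQ
      rcases le_or_gt (v x) 1 with hx | hx
      · have hy := v_Y_le hW h.1 hx
        refine inFormal_sub_of_congr hW h h' hx ((hσ.v_map x).le.trans hx) ?_ ?_
          (hP.resolve_left hx.not_gt)
        · rw [v.map_sub_swap]; exact hσ.sub_lt x hx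
        · rw [v.map_sub_swap]; exact hσ.sub_lt y hy
      · exact InFormal.sub hW hx (show InFormal v (Point.some _ _ h') by
          rw [inFormal_some, hσ.v_map]; exact hx)

/-- Two points over the node in the same component differ by a point with smooth reduction:
the branch case. -/
lemma NodeAt.branch_chord {x₀ y₀ x₁ y₁ x₂ y₂ : F} (h : NodeAt v W x₀ y₀)
    (h₁ : W.Nonsingular x₁ y₁) (h₂ : W.Nonsingular x₂ y₂)
    (hX1 : v (x₁ - x₀) < 1) (hX1B : v (coB W x₀ y₀) < v (x₁ - x₀))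
    (hvX : v (x₂ - x₀) = v (x₁ - x₀))
    (ht : v ((y₁ - y₀) / (x₁ - x₀) - (y₂ - y₀) / (x₂ - x₀)) < 1) :
    SmoothRed v (Point.some x₁ y₁ h₁ - Point.some x₂ y₂ h₂) := by
  set B := coB W x₀ y₀ with hB_def
  set A := coA W x₀ with hA_def
  set X₁ := x₁ - x₀ with hX₁_def
  set X₂ := x₂ - x₀ with hX₂_def
  have hpos : 0 < v X₁ := lt_of_le_of_lt zero_le hX1B
  have hX₁0 : X₁ ≠ 0 := (Valuation.ne_zero_iff v).1 hpos.ne'
  have hX₂0 : X₂ ≠ 0 := (Valuation.ne_zero_iff v).1 (by rw [hvX]; exact hpos.ne')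
  set t := (y₁ - y₀) / X₁ with ht_def
  set t' := (y₂ - y₀) / X₂ with ht'_def
  have hY₁ : y₁ - y₀ = t * X₁ := (div_mul_cancel₀ _ hX₁0).symm
  have hY₂ : y₂ - y₀ = t' * X₂ := (div_mul_cancel₀ _ hX₂0).symm
  have e₁ := h.toTwoTorsionAt.translated h₁.1
  rw [← hX₁_def, ← hA_def, ← hB_def, hY₁] at e₁
  have hA : v A ≤ 1 := h.toTwoTorsionAt.v_A_le
  have hBX : v (B / X₁) < 1 := by rw [map_div₀]; exact (div_lt_one₀ hpos).2 hX1B
  have hq : t ^ 2 + W.a₁ * t = X₁ + A + B / X₁ :=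
    mul_left_cancel₀ (pow_ne_zero 2 hX₁0)
      (by linear_combination e₁ - X₁ * div_mul_cancel₀ B hX₁0)
  have ht1 : v t ≤ 1 := by
    by_contra hcon
    rw [not_le] at hcon
    have hle : v (t ^ 2 + W.a₁ * t) ≤ 1 := by
      rw [hq]; exact v.map_add_le (v.map_add_le hX1.le hA) hBX.le
    have hlt : v (W.a₁ * t) < v (t ^ 2) := by
      rw [map_mul, map_pow, sq]
      exact (mul_le_of_le_one_left' h.integral.h₁).trans_lt
        (by simpa using mul_lt_mul_of_pos_left hcon (zero_lt_one.trans hcon))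
    rw [v.map_add_eq_of_lt_left hlt, map_pow] at hle
    exact (one_lt_pow' hcon (two_ne_zero)).not_ge hle
  have hquad : v (t ^ 2 + W.a₁ * t - A) < 1 := by
    rw [hq, show X₁ + A + B / X₁ - A = X₁ + B / X₁ by ring]
    exact v.map_add_lt hX1 hBX
  have hD2 : v (2 * t + W.a₁) = 1 := by
    have hsq : v ((2 * t + W.a₁) ^ 2) = 1 := by
      refine v_eq_one_of_sub_lt h.hD ?_
      rw [← hA_def, show (2 * t + W.a₁) ^ 2 - (W.a₁ ^ 2 + 4 * A) =
        4 * (t ^ 2 + W.a₁ * t - A) by ring]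
      exact v_mul_lt_right (v_ofNat_le 4) hquad
    rw [map_pow] at hsq
    exact (pow_eq_one_iff_of_nonneg zero_le two_ne_zero).1 hsq
  have ht'1 : v t' ≤ 1 := by
    rw [show t' = t - (t - t') by ring]; exact v.map_sub_le ht1 ht.le
  by_cases hne : x₁ = x₂
  · subst hne
    by_cases hyy : y₁ = y₂
    · subst hyy; rw [sub_self]; trivial
    exfalso
    rcases Y_eq_of_X_eq h₁.1 h₂.1 rfl with h' | h'
    · exact hyy h'
    · have : t + t' + W.a₁ = 0 := by
        refine mul_right_cancel₀ hX₁0 ?_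
        rw [zero_mul, add_mul, add_mul, ← hY₁, show t' * X₁ = t' * X₂ from rfl, ← hY₂]
        simp only [negY] at h'
        rw [hX₁_def]
        linear_combination h' - h.polyY
      have hlt : v (2 * t + W.a₁) < 1 := by
        rw [show 2 * t + W.a₁ = t - t' by linear_combination this]; exact ht
      exact hlt.ne hD2
  obtain ⟨y₃, h₃, e⟩ := sub_some_of_ne h₁ h₂ hne
  rw [e]
  clear e
  generalize hl_def : (y₁ + y₂ + W.a₁ * x₂ + W.a₃) / (x₁ - x₂) = l at h₃ ⊢
  have hx₁ : v x₁ ≤ 1 := by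
    rw [show x₁ = X₁ + x₀ by ring]; exact v.map_add_le hX1.le h.hx₀
  have hx₂ : v x₂ ≤ 1 := by
    rw [show x₂ = X₂ + x₀ by ring]; exact v.map_add_le (hvX.le.trans hX1.le) h.hx₀
  set u := X₂ / X₁ with hu_def
  have hvu : v u = 1 := by rw [map_div₀, hvX, div_self hpos.ne']
  have hu1 : (1 : F) - u ≠ 0 := by
    intro h0
    apply hne
    have : X₂ = X₁ := by
      rw [← div_mul_cancel₀ X₂ hX₁0, ← hu_def, ← sub_eq_zero.1 h0, one_mul]
    linear_combination -this
  have hl : l = (t + (t' + W.a₁) * u) / (1 - u) := by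
    rw [← hl_def, div_eq_div_iff (sub_ne_zero.2 hne) hu1]
    have hX₂u : X₂ = u * X₁ := (div_mul_cancel₀ _ hX₁0).symm
    have h3 := h.polyY
    linear_combination (1 - u) * hY₁ + (1 - u) * hY₂ + (1 - u) * h3 +
      (t + (t' + W.a₁) * u) * hX₂u + (1 - u) * (t' + W.a₁) * hX₂u
  rcases (v.map_sub_le v.map_one.le hvu.le : v (1 - u) ≤ 1).lt_or_eq with h1u | h1u
  · refine Or.inl (one_lt_v_addX h.integral hx₁ hx₂ ?_)
    rw [hl]
    refine one_lt_v_div (v_eq_one_of_sub_lt hD2 ?_) h1u hu1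
    rw [show t + (t' + W.a₁) * u - (2 * t + W.a₁) = -((t + W.a₁) * (1 - u)) - u * (t - t') by ring]
    exact v.map_sub_lt ((v.map_neg _).trans_lt (v_mul_lt_right (v.map_add_le ht1 h.integral.h₁) h1u))
      (v_mul_lt_right hvu.le ht)
  · -- the slope is integral and off both branches
    refine h.smoothRed_of_ne h₃ ?_
    have hf1 : v (l - t) = 1 := by
      rw [hl, div_sub' hu1, map_div₀, h1u, div_one,
        show t + (t' + W.a₁) * u - (1 - u) * t = u * (t + t' + W.a₁) by ring, map_mul, hvu,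
        one_mul]
      refine v_eq_one_of_sub_lt hD2 ?_
      rwa [show t + t' + W.a₁ - (2 * t + W.a₁) = -(t - t') by ring, v.map_neg]
    have hf2 : v (l + t + W.a₁) = 1 := by
      rw [hl, div_add' _ _ _ hu1, div_add' _ _ _ hu1, map_div₀, h1u, div_one]
      refine v_eq_one_of_sub_lt hD2 ?_
      rw [show t + (t' + W.a₁) * u + t * (1 - u) + W.a₁ * (1 - u) - (2 * t + W.a₁) =
        -(u * (t - t')) by ring, v.map_neg]
      exact v_mul_lt_right hvu.le ht
    have hprod : v ((l - t) * (l + t + W.a₁)) = 1 := by rw [map_mul, hf1, hf2, one_mul]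
    refine v_eq_one_of_sub_lt hprod ?_
    have ex : W.addX x₁ x₂ l - x₀ - (l - t) * (l + t + W.a₁) =
        (t ^ 2 + W.a₁ * t - A) - X₁ - X₂ := by
      simp only [hA_def, coA, addX, hX₁_def, hX₂_def]; ring
    rw [ex]
    exact v.map_sub_lt (v.map_sub_lt hquad hX1) (hvX.le.trans_lt hX1)

/-- The middle component. -/
lemma NodeAt.middle_chord {x₀ y₀ x₁ y₁ x₂ y₂ : F} (h : NodeAt v W x₀ y₀)
    (h₁ : W.Nonsingular x₁ y₁) (h₂ : W.Nonsingular x₂ y₂)
    (hX1 : v (x₁ - x₀) ≤ v (coB W x₀ y₀)) (hX2 : v (x₂ - x₀) ≤ v (coB W x₀ y₀))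
    (hX : v ((x₁ - x₀) / coB W x₀ y₀ - (x₂ - x₀) / coB W x₀ y₀) < 1)
    (hY : v ((y₁ - y₀) / coB W x₀ y₀ - (y₂ - y₀) / coB W x₀ y₀) < 1) :
    InFormal v (Point.some x₁ y₁ h₁ - Point.some x₂ y₂ h₂) := by
  set B := coB W x₀ y₀ with hB_def
  set A := coA W x₀ with hA_def
  have hB0 : B ≠ 0 := h.hB0
  have hpos : 0 < v B := zero_lt_iff.2 ((Valuation.ne_zero_iff v).2 hB0)
  have hA : v A ≤ 1 := h.toTwoTorsionAt.v_A_le
  set u₁ := (x₁ - x₀) / B with hu₁_def
  set w₁ := (y₁ - y₀) / B with hw₁_def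
  set u₂ := (x₂ - x₀) / B with hu₂_def
  set w₂ := (y₂ - y₀) / B with hw₂_def
  have hu₁ : v u₁ ≤ 1 := by rw [map_div₀, div_le_one₀ hpos]; exact hX1
  have hu₂ : v u₂ ≤ 1 := by rw [map_div₀, div_le_one₀ hpos]; exact hX2
  have hX₁ : x₁ - x₀ = u₁ * B := (div_mul_cancel₀ _ hB0).symm
  have hY₁ : y₁ - y₀ = w₁ * B := (div_mul_cancel₀ _ hB0).symm
  have hX₂ : x₂ - x₀ = u₂ * B := (div_mul_cancel₀ _ hB0).symm
  have hY₂ : y₂ - y₀ = w₂ * B := (div_mul_cancel₀ _ hB0).symm
  have e₁ := h.toTwoTorsionAt.translated h₁.1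
  rw [← hA_def, ← hB_def, hX₁, hY₁] at e₁
  have e₂ := h.toTwoTorsionAt.translated h₂.1
  rw [← hA_def, ← hB_def, hX₂, hY₂] at e₂
  have g₁ : w₁ ^ 2 + W.a₁ * u₁ * w₁ + 0 * w₁ = B * u₁ ^ 3 + A * u₁ ^ 2 + 1 * u₁ + 0 :=
    mul_left_cancel₀ (pow_ne_zero 2 hB0) (by linear_combination e₁)
  have g₂ : w₂ ^ 2 + W.a₁ * u₂ * w₂ + 0 * w₂ = B * u₂ ^ 3 + A * u₂ ^ 2 + 1 * u₂ + 0 :=
    mul_left_cancel₀ (pow_ne_zero 2 hB0) (by linear_combination e₂)
  have hw₁ : v w₁ ≤ 1 := by
    by_contra hcon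
    rw [not_le] at hcon
    have hlt : v (W.a₁ * u₁ * w₁) < v (w₁ ^ 2) := by
      rw [map_mul, map_pow, sq]
      exact (mul_le_of_le_one_left' (v_mul_le h.integral.h₁ hu₁)).trans_lt
        (by simpa using mul_lt_mul_of_pos_left hcon (zero_lt_one.trans hcon))
    have hle : v (w₁ ^ 2 + W.a₁ * u₁ * w₁) ≤ 1 := by
      rw [show w₁ ^ 2 + W.a₁ * u₁ * w₁ = B * u₁ ^ 3 + A * u₁ ^ 2 + u₁ by linear_combination g₁]
      exact v.map_add_le (v.map_add_le (v_mul_le h.hB.le (v_pow_le hu₁ 3))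
        (v_mul_le hA (v_pow_le hu₁ 2))) hu₁
    rw [v.map_add_eq_of_lt_left hlt, map_pow] at hle
    exact (one_lt_pow' hcon (two_ne_zero)).not_ge hle
  -- the reduced conic is smooth
  have hs : v (2 * w₁ + W.a₁ * u₁ + 0) = 1 ∨
      v (W.a₁ * w₁ - (3 * B * u₁ ^ 2 + 2 * A * u₁ + 1)) = 1 := by
    by_contra hcon
    rw [not_or] at hcon
    have h2u : v (2 : F) ≤ 1 := v_ofNat_le 2
    have hy : v (2 * w₁ + W.a₁ * u₁ + 0) < 1 := lt_of_le_of_ne
      (by rw [add_zero]; exact v.map_add_le (v_mul_le h2u hw₁) (v_mul_le h.integral.h₁ hu₁)) hcon.1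
    have hx : v (W.a₁ * w₁ - (3 * B * u₁ ^ 2 + 2 * A * u₁ + 1)) < 1 := lt_of_le_of_ne
      (v.map_sub_le (v_mul_le h.integral.h₁ hw₁) (v.map_add_le (v.map_add_le
        (v_mul_le (v_mul_le (v_ofNat_le 3) h.hB.le) (v_pow_le hu₁ 2))
        (v_mul_le (v_mul_le h2u hA) hu₁)) v.map_one.le)) hcon.2
    have hu : v u₁ < 1 := by
      rw [show u₁ = u₁ * (W.a₁ * w₁ - (3 * B * u₁ ^ 2 + 2 * A * u₁ + 1)) +
        w₁ * (2 * w₁ + W.a₁ * u₁ + 0) + B * u₁ ^ 3 by linear_combination (-2) * g₁]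
      exact v.map_add_lt (v.map_add_lt (v_mul_lt_right hu₁ hx) (v_mul_lt_right hw₁ hy))
        (v_mul_lt_left h.hB (v_pow_le hu₁ 3))
    have hsq : v (w₁ ^ 2) < 1 := by
      rw [show w₁ ^ 2 = u₁ * (B * u₁ ^ 2 + A * u₁ + 1 - W.a₁ * w₁) by linear_combination g₁]
      exact v_mul_lt_left hu (v.map_sub_le (v.map_add_le (v.map_add_le
        (v_mul_le h.hB.le (v_pow_le hu₁ 2)) (v_mul_le hA hu₁)) v.map_one.le)
        (v_mul_le h.integral.h₁ hw₁))
    have hw : v w₁ < 1 := by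
      by_contra hc
      rw [map_pow, le_antisymm hw₁ (not_lt.1 hc), one_pow] at hsq
      exact lt_irrefl _ hsq
    have : v (1 : F) < 1 := by
      rw [show (1 : F) = W.a₁ * w₁ - (3 * B * u₁ + 2 * A) * u₁ -
        (W.a₁ * w₁ - (3 * B * u₁ ^ 2 + 2 * A * u₁ + 1)) by ring]
      exact v.map_sub_lt (v.map_sub_lt (v_mul_lt_right h.integral.h₁ hw)
        (v_mul_lt_right (v.map_add_le (v_mul_le (v_mul_le (v_ofNat_le 3) h.hB.le) hu₁)
          (v_mul_le h2u hA)) hu)) hx
    exact this.ne v.map_one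
  have hx₁ : v x₁ ≤ 1 := by
    rw [show x₁ = (x₁ - x₀) + x₀ by ring]; exact v.map_add_le (hX1.trans h.hB.le) h.hx₀
  have hx₂ : v x₂ ≤ 1 := by
    rw [show x₂ = (x₂ - x₀) + x₀ by ring]; exact v.map_add_le (hX2.trans h.hB.le) h.hx₀
  have h3 := h.polyY
  by_cases hne : x₁ = x₂
  · subst hne
    by_cases hyy : y₁ = y₂
    · subst hyy; rw [sub_self]; trivial
    have hy₂ : y₂ = W.negY x₁ y₁ := by
      rcases Y_eq_of_X_eq h₁.1 h₂.1 rfl with h' | h'
      · exact absurd h' hyy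
      · rw [h', negY_negY]
    subst hy₂
    obtain ⟨y₃, h₃, e⟩ := sub_some_neg h₁ h₂ hyy
    rw [e, inFormal_some]
    refine one_lt_v_addX h.integral hx₁ hx₁ ?_
    have hden : y₁ - W.negY x₁ y₁ = (2 * w₁ + W.a₁ * u₁) * B := by
      simp only [negY]; linear_combination 2 * hY₁ + W.a₁ * hX₁ + h3
    have hwd : w₁ - w₂ = 2 * w₁ + W.a₁ * u₁ :=
      mul_right_cancel₀ hB0 (by
        rw [sub_mul, ← hY₁, ← hY₂]; linear_combination hden)
    have hfy : v (2 * w₁ + W.a₁ * u₁) < 1 := by rwa [← hwd]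
    have hfy0 : 2 * w₁ + W.a₁ * u₁ ≠ 0 := by
      intro h0; rw [h0, zero_mul, sub_eq_zero] at hden; exact hyy hden
    have hnum : (3 * x₁ ^ 2 + 2 * W.a₂ * x₁ + W.a₄ - W.a₁ * y₁) =
        -((W.a₁ * w₁ - (3 * B * u₁ ^ 2 + 2 * A * u₁ + 1)) * B) := by
      have ha2 : W.a₂ = A - 3 * x₀ := by rw [hA_def, coA]; ring
      have ha4 : W.a₄ = B - 3 * x₀ ^ 2 - 2 * W.a₂ * x₀ + W.a₁ * y₀ := by rw [hB_def, coB]; ring
      rw [ha4, ha2, show x₁ = u₁ * B + x₀ by linear_combination hX₁,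
        show y₁ = w₁ * B + y₀ by linear_combination hY₁]
      ring
    rw [hnum, hden, neg_div, v.map_neg, mul_div_mul_right _ _ hB0]
    exact one_lt_v_div (hs.resolve_left (by rw [add_zero]; exact hfy.ne)) hfy hfy0
  · obtain ⟨y₃, h₃, e⟩ := sub_some_of_ne h₁ h₂ hne
    rw [e, inFormal_some]
    refine one_lt_v_addX h.integral hx₁ hx₂ ?_
    have hd : x₁ - x₂ = (u₁ - u₂) * B := by linear_combination hX₁ - hX₂
    have hn : y₁ + y₂ + W.a₁ * x₂ + W.a₃ = (w₁ + w₂ + W.a₁ * u₂ + 0) * B := by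
      linear_combination hY₁ + hY₂ + W.a₁ * hX₂ + h3
    have hune : u₁ ≠ u₂ := fun h' => hne (sub_eq_zero.1 (by rw [hd, h', sub_self, zero_mul]))
    rw [hd, hn, mul_div_mul_right _ _ hB0]
    exact one_lt_v_slope h.hB.le h.integral.h₁ hA hu₁ hu₂ g₁ g₂ hX hY hune hs

/-- At a node inertia moves every point inside the points with smooth reduction. -/
theorem NodeAt.smoothRed_sub_self {x₀ y₀ : F} (h : NodeAt v W x₀ y₀) (hσ : Inertial v σ)
    (hf : FixesCoeffs σ W) (hσx : σ x₀ = x₀) (hσy : σ y₀ = y₀) {P Q : W.Point}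
    (hPQ : IsImage σ P Q) : SmoothRed v (P - Q) := by
  by_cases hP : SmoothRed v P
  · rw [← neg_sub]; exact (inFormal_sub_self h.integral hσ hPQ hP).neg.smoothRed
  cases P with
  | zero => exact absurd trivial hP
  | some x y hxy => cases Q with
    | zero => exact hPQ.elim
    | some x' y' hxy' =>
      obtain ⟨rfl, rfl⟩ := hPQ
      have hx : v x ≤ 1 := not_lt.1 fun hlt => hP (Or.inl hlt)
      have hX : v (x - x₀) < 1 := (v.map_sub_le hx h.hx₀).lt_or_eq.resolve_right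
        fun he => hP (h.smoothRed_of_ne hxy he)
      have hσB : σ (coB W x₀ y₀) = coB W x₀ y₀ := by
        simp only [coB, map_add, map_sub, map_mul, map_pow, map_ofNat, hf.h₁, hf.h₂, hf.h₄,
          hσx, hσy]
      rcases le_or_gt (v (x - x₀)) (v (coB W x₀ y₀)) with hle | hgt
      · have hu : v ((x - x₀) / coB W x₀ y₀) ≤ 1 := by
          rw [map_div₀]; exact div_le_one_of_le₀ hle zero_le
        refine (h.middle_chord hxy hxy' hle ?_ ?_ ?_).smoothRed
        · rw [show σ x - x₀ = σ (x - x₀) by rw [map_sub, hσx], hσ.v_map]; exact hle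
        · rw [v.map_sub_swap,
            show (σ x - x₀) / coB W x₀ y₀ = σ ((x - x₀) / coB W x₀ y₀) by
              rw [map_div₀, map_sub, hσx, hσB]]
          exact hσ.sub_lt _ hu
        · rw [v.map_sub_swap,
            show (σ y - y₀) / coB W x₀ y₀ = σ ((y - y₀) / coB W x₀ y₀) by
              rw [map_div₀, map_sub, hσy, hσB]]
          refine hσ.sub_lt _ ?_
          -- integrality of the scaled ordinate
          by_contra hcon
          rw [not_le] at hcon
          set u := (x - x₀) / coB W x₀ y₀ with hu_def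
          set w := (y - y₀) / coB W x₀ y₀ with hw_def
          have e := h.toTwoTorsionAt.translated hxy.1
          rw [← div_mul_cancel₀ (x - x₀) h.hB0, ← div_mul_cancel₀ (y - y₀) h.hB0,
            ← hu_def, ← hw_def] at e
          have g : w ^ 2 + W.a₁ * u * w =
              coB W x₀ y₀ * u ^ 3 + coA W x₀ * u ^ 2 + u :=
            mul_left_cancel₀ (pow_ne_zero 2 h.hB0) (by linear_combination e)
          have hlt : v (W.a₁ * u * w) < v (w ^ 2) := by
            rw [map_mul, map_pow, sq]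
            exact (mul_le_of_le_one_left' (v_mul_le h.integral.h₁ hu)).trans_lt
              (by simpa using mul_lt_mul_of_pos_left hcon (zero_lt_one.trans hcon))
          have hle' : v (w ^ 2 + W.a₁ * u * w) ≤ 1 := by
            rw [g]
            exact v.map_add_le (v.map_add_le (v_mul_le h.hB.le (v_pow_le hu 3))
              (v_mul_le h.toTwoTorsionAt.v_A_le (v_pow_le hu 2))) hu
          rw [v.map_add_eq_of_lt_left hlt, map_pow] at hle'
          exact (one_lt_pow' hcon two_ne_zero).not_ge hle'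
      · refine h.branch_chord hxy hxy' hX hgt ?_ ?_
        · rw [show σ x - x₀ = σ (x - x₀) by rw [map_sub, hσx], hσ.v_map]
        · rw [v.map_sub_swap, show (σ y - y₀) / (σ x - x₀) = σ ((y - y₀) / (x - x₀)) by
            rw [map_div₀, map_sub, map_sub, hσx, hσy]]
          refine hσ.sub_lt _ ?_
          set t := (y - y₀) / (x - x₀) with ht_def
          by_contra hcon
          rw [not_le] at hcon
          have hpos : 0 < v (x - x₀) := lt_of_le_of_lt zero_le hgt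
          have hX0 : x - x₀ ≠ 0 := (Valuation.ne_zero_iff v).1 hpos.ne'
          have e := h.toTwoTorsionAt.translated hxy.1
          rw [← div_mul_cancel₀ (y - y₀) hX0, ← ht_def] at e
          have g : t ^ 2 + W.a₁ * t = (x - x₀) + coA W x₀ + coB W x₀ y₀ / (x - x₀) := by
            exact mul_left_cancel₀ (pow_ne_zero 2 hX0) (by
              linear_combination e - (x - x₀) * div_mul_cancel₀ (coB W x₀ y₀) hX0)
          have hlt : v (W.a₁ * t) < v (t ^ 2) := by
            rw [map_mul, map_pow, sq]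
            exact (mul_le_of_le_one_left' h.integral.h₁).trans_lt
              (by simpa using mul_lt_mul_of_pos_left hcon (zero_lt_one.trans hcon))
          have hle' : v (t ^ 2 + W.a₁ * t) ≤ 1 := by
            rw [g]
            refine v.map_add_le (v.map_add_le hX.le h.toTwoTorsionAt.v_A_le) ?_
            rw [map_div₀]; exact ((div_lt_one₀ hpos).2 hgt).le
          rw [v.map_add_eq_of_lt_left hlt, map_pow] at hle'
          exact (one_lt_pow' hcon two_ne_zero).not_ge hle'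

end Fermat.Agent.FreyReducible
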