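import Mathlib.Algebra.Module.ZMod
import Mathlib.FieldTheory.Galois.Infinite
import Mathlib.FieldTheory.IntermediateField.Adjoin.Basic
import Fermat.Prelude.Def_FLTPrelim_Ramification
import Fermat.Agent.FreyReducible.Node
import Fermat.Agent.GaloisBasics.Galois

/-!
# A stable line in the `p`-torsion of a semistable curve is fixed or cofixed

Let `E` be an elliptic curve over `ℚ` and `C` a Galois stable line in `E[p]`. Then Galois fixes `C`
pointwise or acts trivially on `E[p]/C` (`fixed_or_cofixed`), assuming: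

* inertia moves every point into the smooth locus of the reduction (`NodeInput`, see `Node.lean`);
* `#E[p] = p²`, and an integral polynomial with leading coefficient `p` of degree `(p² - 1)/2`
  kills the abscissae of the `p`-torsion (`TorsionInput`);
* `ℚ` has no nontrivial unramified extension (`MinkowskiInput`).
-/

set_option autoImplicit false

open WeierstrassCurve WeierstrassCurve.Affine Polynomial

namespace Fermat.Agent.FreyReducible

open Fermat.Agent.GaloisBasics (Qbar GalQ)

noncomputable section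

variable {E : Affine ℚ} {p : ℕ}

/-- The torsion module of `E` over the algebraic closure of `ℚ`. -/
abbrev Tors (E : Affine ℚ) (p : ℕ) : Type :=
  Submodule.torsionBy ℤ (E⁄Qbar).Point p

/-- `E[p]` has `p²` points and its abscissae are roots of an integral polynomial of degree
`(p² - 1)/2` with leading coefficient `p`. -/
structure TorsionInput (E : Affine ℚ) (p : ℕ) : Prop where
  card : Nat.card (Tors E p) = p ^ 2
  poly : ∃ f : ℤ[X], f.natDegree = (p ^ 2 - 1) / 2 ∧ f.leadingCoeff = (p : ℤ) ∧
    ∀ (x y : Qbar) (h : (E⁄Qbar).Nonsingular x y),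
      p • Point.some x y h = 0 → Polynomial.aeval x f = 0

/-- A subgroup of the Galois group containing every inertia group and the fixing subgroup of a
number field is the whole group: `ℚ` has no nontrivial unramified extension (Minkowski). -/
def MinkowskiInput : Prop :=
  ∀ (H : Subgroup GalQ) (L : IntermediateField ℚ Qbar), FiniteDimensional ℚ L →
    L.fixingSubgroup ≤ H →
    (∀ q : ℕ, q.Prime → ∀ A : ValuationSubring Qbar, A.LiesOverPrime q →
      A.inertiaSubgroupIn ℚ ≤ H) → H = ⊤

/-- The local hypothesis: inertia moves every point into the smooth locus of the reduction. -/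
def NodeInput (E : Affine ℚ) : Prop :=
  ∀ (q : ℕ), q.Prime → ∀ A : ValuationSubring Qbar, A.LiesOverPrime q →
    IntegralCoeffs A.valuation (E⁄Qbar) ∧
    ∀ σ ∈ A.inertiaSubgroupIn ℚ, ∀ P : (E⁄Qbar).Point, SmoothRed A.valuation (σ • P - P)

/-! ### Inertia as an endomorphism of the valued field -/

/-- Inertia preserves the valuation and is trivial on the residue field. -/
lemma inertial_of_mem {A : ValuationSubring Qbar} {σ : GalQ}
    (hσ : σ ∈ A.inertiaSubgroupIn ℚ) : Inertial A.valuation (σ : Qbar →+* Qbar) := by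
  obtain ⟨hd, hres⟩ := GaloisBasics.mem_inertiaSubgroupIn_iff.1 hσ
  have hle : ∀ x y : Qbar, A.valuation x ≤ A.valuation y →
      A.valuation (σ x) ≤ A.valuation (σ y) := by
    intro x y hxy
    rcases eq_or_ne y 0 with rfl | hy
    · rw [map_zero, le_zero_iff, Valuation.zero_iff] at hxy
      rw [hxy]
    · have h1 : x / y ∈ A := by
        rw [← A.valuation_le_one_iff, map_div₀]; exact div_le_one_of_le₀ hxy zero_le
      have h2 : A.valuation (σ x / σ y) ≤ 1 := by
        rw [A.valuation_le_one_iff, ← map_div₀]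
        exact (GaloisBasics.apply_mem_iff hd _).2 h1
      rw [map_div₀] at h2
      exact (div_le_one₀ (zero_lt_iff.2 ((Valuation.ne_zero_iff _).2
        ((map_ne_zero σ).2 hy)))).1 h2
  have hlt : ∀ x y : Qbar, A.valuation x < A.valuation y →
      A.valuation (σ x) < A.valuation (σ y) := by
    intro x y hxy
    refine lt_of_not_ge fun hge => hxy.not_ge ?_
    have h' : A.valuation (σ y) ≤ A.valuation (σ x) := hge
    -- pull the inequality back along `σ⁻¹`, again in the decomposition group
    rcases eq_or_ne x 0 with rfl | hx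
    · rw [map_zero, map_zero, le_zero_iff, Valuation.zero_iff, map_eq_zero] at h'
      rw [h']
    · have h1 : σ y / σ x ∈ A := by
        rw [← A.valuation_le_one_iff, map_div₀]; exact div_le_one_of_le₀ h' zero_le
      rw [← map_div₀, GaloisBasics.apply_mem_iff hd, ← A.valuation_le_one_iff, map_div₀] at h1
      exact (div_le_one₀ (zero_lt_iff.2 ((Valuation.ne_zero_iff _).2 hx))).1 h1
  refine ⟨fun x => (show A.valuation (σ x) = A.valuation x from ?_),
    fun x hx => (show A.valuation (σ x - x) < 1 from ?_)⟩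
  · -- the orbit of an algebraic number is finite
    have hfin : Set.Finite (Set.range fun n : ℕ => (σ ^ n) x) := by
      refine ((minpoly ℚ x).rootSet_finite Qbar).subset ?_
      rintro _ ⟨n, rfl⟩
      rw [Polynomial.mem_rootSet]
      refine ⟨minpoly.ne_zero (Algebra.IsIntegral.isIntegral x), ?_⟩
      rw [Polynomial.aeval_algHom_apply, minpoly.aeval, map_zero]
    have hnot : ¬ (∀ n, A.valuation ((σ ^ (n + 1)) x) < A.valuation ((σ ^ n) x)) ∧
        ¬ (∀ n, A.valuation ((σ ^ n) x) < A.valuation ((σ ^ (n + 1)) x)) := by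
      constructor <;> intro h
      · have hanti : StrictAnti fun n => A.valuation ((σ ^ n) x) := strictAnti_nat_of_succ_lt h
        refine Set.infinite_range_of_injective hanti.injective ((hfin.image A.valuation).subset ?_)
        rintro _ ⟨n, rfl⟩; exact ⟨_, ⟨n, rfl⟩, rfl⟩
      · have hmono : StrictMono fun n => A.valuation ((σ ^ n) x) := strictMono_nat_of_lt_succ h
        refine Set.infinite_range_of_injective hmono.injective ((hfin.image A.valuation).subset ?_)
        rintro _ ⟨n, rfl⟩; exact ⟨_, ⟨n, rfl⟩, rfl⟩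
    rcases lt_trichotomy (A.valuation (σ x)) (A.valuation x) with h | h | h
    · refine absurd (fun n => ?_) hnot.1
      induction n with
      | zero => simpa using h
      | succ n ih =>
        have e : ∀ m, (σ ^ (m + 1)) x = σ ((σ ^ m) x) := fun m => by
          rw [pow_succ', AlgEquiv.mul_apply]
        have h' := hlt _ _ ih
        rwa [← e n, ← e (n + 1)] at h'
    · exact h
    · refine absurd (fun n => ?_) hnot.2
      induction n with
      | zero => simpa using h
      | succ n ih =>
        have e : ∀ m, (σ ^ (m + 1)) x = σ ((σ ^ m) x) := fun m => by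
          rw [pow_succ', AlgEquiv.mul_apply]
        have h' := hlt _ _ ih
        rwa [← e n, ← e (n + 1)] at h'
  · exact A.mem_nonunits_iff.1 (hres x ((A.valuation_le_one_iff x).1 hx))

/-- The Galois action on points is coordinatewise. -/
lemma isImage_smul (σ : GalQ) (P : (E⁄Qbar).Point) :
    IsImage (σ : Qbar →+* Qbar) P (σ • P) := by
  cases P with
  | zero => exact trivial
  | some x y h => exact ⟨rfl, rfl⟩

/-! ### Local consequences -/

variable (E p) in
/-- The torsion points reducing to the origin, as a subgroup. -/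
def formalTors (A : ValuationSubring Qbar) (hA : IntegralCoeffs A.valuation (E⁄Qbar)) :
    AddSubgroup (Tors E p) where
  carrier := {x | InFormal A.valuation (x : (E⁄Qbar).Point)}
  zero_mem' := trivial
  add_mem' {_ _} h h' := h.add hA h'
  neg_mem' {_} h := h.neg

lemma mem_formalTors {A : ValuationSubring Qbar} (hA : IntegralCoeffs A.valuation (E⁄Qbar))
    {x : Tors E p} : x ∈ formalTors E p A hA ↔ InFormal A.valuation (x : (E⁄Qbar).Point) :=
  Iff.rfl

lemma smul_sub_smul_sub_mem (hnode : NodeInput E) {q : ℕ} (hq : q.Prime)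
    {A : ValuationSubring Qbar} (hA : A.LiesOverPrime q) {σ : GalQ}
    (hσ : σ ∈ A.inertiaSubgroupIn ℚ) (x : Tors E p) :
    σ • (σ • x - x) - (σ • x - x) ∈ formalTors E p A (hnode q hq A hA).1 := by
  rw [mem_formalTors]
  exact inFormal_sub_self (hnode q hq A hA).1 (inertial_of_mem hσ) (isImage_smul σ _)
    ((hnode q hq A hA).2 σ hσ _)

/-- A root of an integral polynomial with unit leading coefficient is integral. -/
lemma valuation_root_le_one {A : ValuationSubring Qbar} {f : ℤ[X]}
    (hlead : A.valuation ((f.leadingCoeff : ℤ) : Qbar) = 1) {x : Qbar}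
    (hx : Polynomial.aeval x f = 0) : A.valuation x ≤ 1 := by
  by_contra hcon
  rw [not_le] at hcon
  rcases eq_or_ne f 0 with rfl | hf
  · simp at hlead
  have hx0 : A.valuation x ≠ 0 := (zero_lt_one.trans hcon).ne'
  rw [Polynomial.aeval_eq_sum_range, Finset.sum_range_succ] at hx
  simp only [zsmul_eq_mul] at hx
  have htop : A.valuation ((f.coeff f.natDegree : Qbar) * x ^ f.natDegree) =
      A.valuation x ^ f.natDegree := by
    rw [map_mul, map_pow, ← Polynomial.leadingCoeff, hlead, one_mul]
  have hlt : A.valuation (∑ i ∈ Finset.range f.natDegree, (f.coeff i : Qbar) * x ^ i) <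
      A.valuation x ^ f.natDegree := by
    refine Valuation.map_sum_lt _ (pow_ne_zero _ hx0) fun i hi => ?_
    rw [map_mul, map_pow]
    refine lt_of_le_of_lt (mul_le_of_le_one_left'
      ((A.valuation_le_one_iff _).2 (intCast_mem A _))) ?_
    exact pow_lt_pow_right₀ hcon (Finset.mem_range.1 hi)
  rw [← htop] at hlt
  have := A.valuation.map_add_eq_of_lt_right hlt
  rw [hx, map_zero, htop] at this
  exact pow_ne_zero _ hx0 this.symm

/-- An integer prime to `q` is a unit at the places over `q`. -/
lemma valuation_intCast_of_not_dvd {q : ℕ} (hq : q.Prime) {A : ValuationSubring Qbar}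
    (hA : A.LiesOverPrime q) {n : ℤ} (h : ¬ (q : ℤ) ∣ n) : A.valuation (n : Qbar) = 1 := by
  refine le_antisymm ((A.valuation_le_one_iff _).2 (intCast_mem A n)) (le_of_not_gt fun hlt => ?_)
  obtain ⟨u, w, huw⟩ := ((Nat.prime_iff_prime_int.1 hq).coprime_iff_not_dvd).2 h
  have h1 : A.valuation ((u : Qbar) * (q : Qbar) + (w : Qbar) * (n : Qbar)) < 1 :=
    Valuation.map_add_lt _ (v_mul_lt_right ((A.valuation_le_one_iff _).2 (intCast_mem A u)) hA)
      (v_mul_lt_right ((A.valuation_le_one_iff _).2 (intCast_mem A w)) hlt)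
  have e : (u : Qbar) * (q : Qbar) + (w : Qbar) * (n : Qbar) = 1 := by
    exact_mod_cast congrArg (Int.cast (R := Qbar)) huw
  rw [e, map_one] at h1
  exact lt_irrefl _ h1

/-- A prime is a unit at the places over another prime. -/
lemma valuation_natCast_prime {q : ℕ} (hq : q.Prime) (hp : p.Prime) (hqp : q ≠ p)
    {A : ValuationSubring Qbar} (hA : A.LiesOverPrime q) : A.valuation (p : Qbar) = 1 := by
  have := valuation_intCast_of_not_dvd hq hA (n := (p : ℤ))
    fun h => hqp ((Nat.prime_dvd_prime_iff_eq hq hp).1 (by exact_mod_cast h))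
  exact_mod_cast this

/-- The torsion points are killed by `p`. -/
lemma nsmul_tors (x : Tors E p) : p • (x : (E⁄Qbar).Point) = 0 := by
  have h := (Submodule.mem_torsionBy_iff _ _).1 x.2
  rwa [natCast_zsmul] at h

lemma formalTors_eq_bot (hT : TorsionInput E p) (hp : p.Prime) {q : ℕ} (hq : q.Prime)
    (hqp : q ≠ p) {A : ValuationSubring Qbar} (hA : A.LiesOverPrime q)
    (hint : IntegralCoeffs A.valuation (E⁄Qbar)) : formalTors E p A hint = ⊥ := by
  rw [eq_bot_iff]
  intro x hx
  obtain ⟨f, -, hlead, hroot⟩ := hT.poly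
  rw [AddSubgroup.mem_bot]
  have hpx := nsmul_tors x
  obtain ⟨P, hP⟩ := x
  apply Subtype.ext
  cases P with
  | zero => rfl
  | some a b h =>
    have hv := valuation_root_le_one (A := A) (f := f)
      (by rw [hlead]; push_cast; exact valuation_natCast_prime hq hp hqp hA) (hroot a b h hpx)
    exact absurd hx (not_lt.2 hv)

/-! ### Abscissae -/

/-- The abscissa of a point, with junk value `0` at the origin. -/
def xOf : (E⁄Qbar).Point → Qbar
  | .zero => 0
  | .some x _ _ => x

lemma one_lt_valuation_xOf {A : ValuationSubring Qbar} {P : (E⁄Qbar).Point} (h : P ≠ 0)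
    (hP : InFormal A.valuation P) : 1 < A.valuation (xOf P) := by
  cases P with
  | zero => exact absurd rfl h
  | some x y _ => exact hP

lemma xOf_smul (σ : GalQ) (P : (E⁄Qbar).Point) : xOf (σ • P) = σ (xOf P) := by
  cases P with
  | zero => exact (map_zero σ).symm
  | some x y _ => rfl

lemma eq_or_eq_neg_of_xOf_eq {P Q : (E⁄Qbar).Point} (hP : P ≠ 0) (hQ : Q ≠ 0)
    (h : xOf P = xOf Q) : P = Q ∨ P = -Q := by
  refine Point.eq_or_eq_neg_of_xRep_eq_xRep ?_
  cases P with
  | zero => exact absurd rfl hP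
  | some x y _ => cases Q with
    | zero => exact absurd rfl hQ
    | some x' y' _ => simp only [xOf] at h; subst h; rfl

/-- A Galois-fixed algebraic number is rational. -/
lemma exists_rat_of_fixed {z : Qbar} (h : ∀ σ : GalQ, σ z = z) :
    ∃ r : ℚ, algebraMap ℚ Qbar r = z := by
  have := (InfiniteGalois.mem_range_algebraMap_iff_fixed (k := ℚ) z).2 h
  exact this

section Line

variable [Fact p.Prime] (hT : TorsionInput E p) {C : Submodule (ZMod p) (Tors E p)}

include hT

/-- The torsion module is finite. -/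
lemma finite_tors : Finite (Tors E p) :=
  Nat.finite_of_card_ne_zero (by rw [hT.card]; exact pow_ne_zero 2 (Fact.out : p.Prime).ne_zero)

lemma finrank_tors : Module.finrank (ZMod p) (Tors E p) = 2 := by
  have := finite_tors hT
  have h := Module.natCard_eq_pow_finrank (K := ZMod p) (V := Tors E p)
  rw [hT.card, Nat.card_zmod] at h
  exact (Nat.pow_right_injective (Fact.out : p.Prime).two_le h).symm

lemma finrank_line (h0 : C ≠ ⊥) (h1 : C ≠ ⊤) : Module.finrank (ZMod p) C = 1 := by
  have := finite_tors hT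
  have hlt := Submodule.finrank_lt (lt_top_iff_ne_top.2 h1).ne
  rw [finrank_tors hT] at hlt
  have hpos : 0 < Module.finrank (ZMod p) C := by
    rw [Nat.pos_iff_ne_zero]; intro h; exact h0 (Submodule.finrank_eq_zero.1 h)
  omega

lemma finrank_quotient_line (h0 : C ≠ ⊥) (h1 : C ≠ ⊤) :
    Module.finrank (ZMod p) (Tors E p ⧸ C) = 1 := by
  have := finite_tors hT
  have h := C.finrank_quotient_add_finrank
  rw [finrank_tors hT, finrank_line hT h0 h1] at h
  omega

end Line

/-- An additive map of a line whose square vanishes is zero. -/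
lemma eq_zero_of_sq_eq_zero [Fact p.Prime] {M : Type*} [AddCommGroup M] [Module (ZMod p) M]
    (h : Module.finrank (ZMod p) M = 1) (T : M →+ M) (hT : ∀ m, T (T m) = 0) (m : M) : T m = 0 := by
  obtain ⟨e, he, hspan⟩ := finrank_eq_one_iff'.1 h
  obtain ⟨c, hc⟩ := hspan (T e)
  obtain ⟨d, rfl⟩ := hspan m
  have h2 := hT e
  rw [← hc, ZMod.map_smul, ← hc, smul_smul, smul_eq_zero] at h2
  have hc0 : c = 0 := mul_self_eq_zero.1 (h2.resolve_right he)
  rw [ZMod.map_smul, ← hc, hc0, zero_smul, smul_zero]

/-- `x ↦ σ x - x`. -/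
noncomputable def diffHom (σ : GalQ) : Tors E p →+ Tors E p :=
  DistribSMul.toAddMonoidHom (Tors E p) σ - AddMonoidHom.id _

/-- If `(σ-1)²` maps a stable line into zero, then `σ` fixes it. -/
lemma fixed_of_sq [Fact p.Prime] (hT : TorsionInput E p) {C : Submodule (ZMod p) (Tors E p)}
    (hst : Point.IsGaloisStable ℚ C) (h0 : C ≠ ⊥) (h1 : C ≠ ⊤) {σ : GalQ}
    (hsq : ∀ x ∈ C, σ • (σ • x - x) - (σ • x - x) = 0) : ∀ x ∈ C, σ • x = x := by
  have hmem : ∀ x : C, diffHom σ (x : Tors E p) ∈ C := fun x =>
    C.sub_mem (hst σ _ x.2) x.2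
  let T : C →+ C := AddMonoidHom.mk' (fun x => ⟨_, hmem x⟩) fun a b => Subtype.ext (map_add _ _ _)
  intro x hx
  have h := eq_zero_of_sq_eq_zero (finrank_line hT h0 h1) T
    (fun m => Subtype.ext (hsq _ m.2)) ⟨x, hx⟩
  exact sub_eq_zero.1 (Subtype.ext_iff.1 h)

/-- If `(σ-1)²` maps into a stable line, then `σ` acts trivially on the quotient. -/
lemma cofixed_of_sq [Fact p.Prime] (hT : TorsionInput E p) {C : Submodule (ZMod p) (Tors E p)}
    (hst : Point.IsGaloisStable ℚ C) (h0 : C ≠ ⊥) (h1 : C ≠ ⊤) {σ : GalQ}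
    (hsq : ∀ x : Tors E p, σ • (σ • x - x) - (σ • x - x) ∈ C) :
    ∀ x : Tors E p, σ • x - x ∈ C := by
  have hmem : C.toAddSubgroup ≤ ((QuotientAddGroup.mk' C.toAddSubgroup).comp (diffHom σ)).ker :=
    fun x hx => (QuotientAddGroup.eq_zero_iff _).2 (C.sub_mem (hst σ x hx) hx)
  let T : (Tors E p ⧸ C) →+ (Tors E p ⧸ C) :=
    QuotientAddGroup.lift C.toAddSubgroup
      ((QuotientAddGroup.mk' C.toAddSubgroup).comp (diffHom σ)) hmem
  intro x
  have h := eq_zero_of_sq_eq_zero (finrank_quotient_line hT h0 h1) T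
    (fun m => by
      obtain ⟨y, rfl⟩ := Submodule.Quotient.mk_surjective C m
      exact (Submodule.Quotient.mk_eq_zero C).2 (hsq y))
    (Submodule.Quotient.mk x)
  exact (Submodule.Quotient.mk_eq_zero C).1 h

/-- A nonempty product of factors bigger than one is bigger than one. -/
lemma one_lt_prod_map {ι : Type*} {Γ : Type*} [LinearOrderedCommGroupWithZero Γ] {s : Finset ι}
    {g : ι → Γ} (hne : s.Nonempty) (h : ∀ i ∈ s, 1 < g i) : 1 < ∏ i ∈ s, g i := by
  classical
  obtain ⟨i, hi⟩ := hne
  rw [← Finset.mul_prod_erase s g hi]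
  exact (h i hi).trans_le
    (le_mul_of_one_le_right' (Finset.one_le_prod' fun j hj => (h j (Finset.mem_of_mem_erase hj)).le))

/-! ### The rational number attached to a stable line -/

section Global

open scoped Classical

variable [Fact p.Prime] (hT : TorsionInput E p) {C : Submodule (ZMod p) (Tors E p)}
  (hst : Point.IsGaloisStable ℚ C)

/-- The abscissae of a subset of the torsion, without the origin. -/
noncomputable def xSet (hT : TorsionInput E p) (S : Set (Tors E p)) : Finset Qbar :=
  haveI := finite_tors hT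
  (Set.toFinite ((fun x : Tors E p => xOf (x : (E⁄Qbar).Point)) '' (S \ {0}))).toFinset

lemma mem_xSet {S : Set (Tors E p)} {z : Qbar} :
    z ∈ xSet hT S ↔ ∃ x ∈ S, x ≠ 0 ∧ xOf (x : (E⁄Qbar).Point) = z := by
  simp [xSet, and_assoc]

include hst in
lemma exists_rat_prod_eq : ∃ r : ℚ, algebraMap ℚ Qbar r = ∏ z ∈ xSet hT (C : Set _), z := by
  refine exists_rat_of_fixed fun σ => ?_
  rw [map_prod]
  refine Finset.prod_nbij σ (fun z hz => ?_) σ.injective.injOn (fun z hz => ?_) (fun z _ => rfl)
  · obtain ⟨x, hx, hx0, rfl⟩ := (mem_xSet hT).1 hz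
    refine (mem_xSet hT).2 ⟨σ • x, hst σ x hx, fun h => hx0 ?_, ?_⟩
    · rwa [smul_eq_zero_iff_eq] at h
    · exact xOf_smul σ _
  · obtain ⟨x, hx, hx0, rfl⟩ := (mem_xSet hT).1 hz
    refine ⟨xOf ((σ⁻¹ • x : Tors E p) : (E⁄Qbar).Point),
      (mem_xSet hT).2 ⟨σ⁻¹ • x, hst σ⁻¹ x hx, fun h => hx0 ?_, rfl⟩, ?_⟩
    · rwa [smul_eq_zero_iff_eq] at h
    · show σ (xOf (σ⁻¹ • (x : (E⁄Qbar).Point))) = _
      rw [xOf_smul]
      exact AlgEquiv.apply_symm_apply σ _

include hT in
lemma card_xSet_univ_ge : (p ^ 2 - 1) / 2 ≤ (xSet hT (Set.univ : Set (Tors E p))).card := by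
  have := finite_tors hT
  let := Fintype.ofFinite (Tors E p)
  set s : Finset (Tors E p) := Finset.univ.erase 0 with hs
  have hcard : s.card = p ^ 2 - 1 := by
    rw [hs, Finset.card_erase_of_mem (Finset.mem_univ _), Finset.card_univ,
      ← Nat.card_eq_fintype_card, hT.card]
  have himg : s.image (fun x : Tors E p => xOf (x : (E⁄Qbar).Point)) ⊆
      xSet hT (Set.univ : Set (Tors E p)) := by
    intro z hz
    obtain ⟨x, hx, rfl⟩ := Finset.mem_image.1 hz
    exact (mem_xSet hT).2 ⟨x, trivial, Finset.ne_of_mem_erase hx, rfl⟩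
  have hfib : ∀ z ∈ s.image (fun x : Tors E p => xOf (x : (E⁄Qbar).Point)),
      (s.filter fun x : Tors E p => xOf (x : (E⁄Qbar).Point) = z).card ≤ 2 := by
    intro z hz
    obtain ⟨x, hx, rfl⟩ := Finset.mem_image.1 hz
    refine (Finset.card_le_card (?_ : _ ⊆ ({x, -x} : Finset (Tors E p)))).trans Finset.card_le_two
    intro y hy
    obtain ⟨hy, hxy⟩ := Finset.mem_filter.1 hy
    have hne : ∀ w ∈ s, (w : (E⁄Qbar).Point) ≠ 0 := fun w hw h =>
      Finset.ne_of_mem_erase hw (Subtype.ext h)
    rcases eq_or_eq_neg_of_xOf_eq (hne y hy) (hne x hx) hxy with h | h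
    · simp [Subtype.ext h]
    · simp [show y = -x from Subtype.ext h]
  have := Finset.card_le_mul_card_image s 2 hfib
  have h2 := Finset.card_le_card himg
  omega

/-- Rational numbers with non-integral value are at least `1/p` in absolute value. -/
lemma valuation_rat_ge {A : ValuationSubring Qbar} (hA : A.LiesOverPrime p) {r : ℚ}
    (hr : 1 < A.valuation (algebraMap ℚ Qbar r)) :
    p ∣ r.den ∧ 1 ≤ A.valuation (algebraMap ℚ Qbar r) * A.valuation (p : Qbar) := by
  have hpp : p.Prime := Fact.out
  have hmul : algebraMap ℚ Qbar r * (r.den : Qbar) = (r.num : Qbar) := by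
    rw [← map_natCast (algebraMap ℚ Qbar), ← map_mul, Rat.mul_den_eq_num, map_intCast]
  have hden : p ∣ r.den := by
    by_contra h
    have h1 := valuation_intCast_of_not_dvd hpp hA (n := (r.den : ℤ)) (by exact_mod_cast h)
    have h2 := congrArg A.valuation hmul
    rw [map_mul, show A.valuation (r.den : Qbar) = 1 by exact_mod_cast h1, mul_one] at h2
    exact hr.not_ge (h2.trans_le ((A.valuation_le_one_iff _).2 (intCast_mem A _)))
  refine ⟨hden, ?_⟩
  have hnum : A.valuation (r.num : Qbar) = 1 := by
    refine valuation_intCast_of_not_dvd hpp hA fun h => hpp.not_dvd_one ?_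
    rw [← r.reduced.gcd_eq_one]
    exact Nat.dvd_gcd (Int.natCast_dvd.1 h) hden
  obtain ⟨d, hd⟩ := hden
  have h2 := congrArg A.valuation hmul
  rw [hd, Nat.cast_mul, map_mul, map_mul, hnum, ← mul_assoc] at h2
  rw [← h2]
  exact mul_le_of_le_one_right' ((A.valuation_le_one_iff _).2 (natCast_mem A d))

include hT hst in
/-- Not all `p`-torsion reduces to the origin at a place over `p`. -/
lemma formalTors_ne_top (h0 : C ≠ ⊥) (h1 : C ≠ ⊤) {A : ValuationSubring Qbar}
    (hA : A.LiesOverPrime p) (hint : IntegralCoeffs A.valuation (E⁄Qbar)) :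
    formalTors E p A hint ≠ ⊤ := by
  intro htop
  have hpp : p.Prime := Fact.out
  have := finite_tors hT
  obtain ⟨f, hdeg, hlead, hroot⟩ := hT.poly
  set R := xSet hT (Set.univ : Set (Tors E p)) with hR
  set S := xSet hT (C : Set (Tors E p)) with hS
  have hbig : ∀ z ∈ R, 1 < A.valuation z := by
    intro z hz
    obtain ⟨x, -, hx0, rfl⟩ := (mem_xSet hT).1 hz
    exact one_lt_valuation_xOf (fun h => hx0 (Subtype.ext h))
      ((mem_formalTors hint).1 (htop ▸ AddSubgroup.mem_top x))
  have hSR : S ⊆ R := fun z hz => by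
    obtain ⟨x, -, hx0, rfl⟩ := (mem_xSet hT).1 hz
    exact (mem_xSet hT).2 ⟨x, trivial, hx0, rfl⟩
  -- `∏ R` is the constant term over the leading coefficient
  set g : Qbar[X] := f.map (Int.castRingHom Qbar) with hg
  have hgdeg : g.natDegree = (p ^ 2 - 1) / 2 := by
    rw [hg, natDegree_map_eq_of_injective (RingHom.injective_int _), hdeg]
  have hglead : g.leadingCoeff = (p : Qbar) := by
    rw [hg, leadingCoeff_map_of_injective (RingHom.injective_int _), hlead]; simp
  have hg0 : g ≠ 0 := by
    intro h; rw [h, leadingCoeff_zero] at hglead; exact hpp.ne_zero (by exact_mod_cast hglead.symm)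
  have hroots : R.val ≤ g.roots := by
    rw [Multiset.le_iff_subset R.nodup]
    intro z hz
    obtain ⟨x, -, hx0, rfl⟩ := (mem_xSet hT).1 hz
    have hpx := nsmul_tors x
    obtain ⟨P, hP⟩ := x
    cases P with
    | zero => exact absurd rfl hx0
    | some a b h =>
      have h' := hroot a b h hpx
      rw [aeval_def, show algebraMap ℤ Qbar = Int.castRingHom Qbar from Subsingleton.elim _ _] at h'
      rw [mem_roots hg0, IsRoot, hg, eval_map]
      exact h'
  have hcard : g.roots = R.val := by
    refine (Multiset.eq_of_le_of_card_le hroots ?_).symm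
    calc Multiset.card g.roots ≤ g.natDegree := card_roots' g
      _ ≤ _ := by rw [hgdeg]; exact card_xSet_univ_ge hT
  have hprodR : A.valuation (∏ z ∈ R, z) * A.valuation (p : Qbar) ≤ 1 := by
    have hfac := C_leadingCoeff_mul_prod_multiset_X_sub_C (p := g) (by
      refine le_antisymm (card_roots' g) ?_
      rw [hcard, hgdeg]; exact card_xSet_univ_ge hT)
    have h := congrArg (eval 0) hfac
    rw [eval_mul, eval_C, hglead, hcard, eval_multiset_prod, Multiset.map_map] at h
    have h' := congrArg A.valuation h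
    rw [map_mul, map_multiset_prod, Multiset.map_map] at h'
    have he : A.valuation (eval 0 g) ≤ 1 := by
      rw [← coeff_zero_eq_eval_zero, hg, coeff_map, A.valuation_le_one_iff]
      exact intCast_mem A _
    rw [← h'] at he
    rw [map_prod, mul_comm, Finset.prod_eq_multiset_prod]
    convert he using 4
    simp
  -- the proper subproduct over the line is already at least `1/p`
  obtain ⟨r, hr⟩ := exists_rat_prod_eq hT hst (C := C)
  rw [← hS] at hr
  obtain ⟨c, hc, hc0⟩ := Submodule.exists_mem_ne_zero_of_ne_bot h0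
  have hSne : S.Nonempty := ⟨_, (mem_xSet hT).2 ⟨c, hc, hc0, rfl⟩⟩
  have hSgt : 1 < A.valuation (∏ z ∈ S, z) := by
    rw [map_prod]
    exact one_lt_prod_map hSne fun z hz => hbig z (hSR hz)
  obtain ⟨-, hge⟩ := valuation_rat_ge hA (r := r) (by rw [hr]; exact hSgt)
  rw [hr] at hge
  obtain ⟨Q, hQ⟩ : ∃ Q : Tors E p, Q ∉ C := by
    by_contra h; push Not at h; exact h1 (eq_top_iff.2 fun x _ => h x)
  have hQ0 : Q ≠ 0 := fun h => hQ (h ▸ C.zero_mem)
  have hQS : xOf (Q : (E⁄Qbar).Point) ∉ S := by
    intro h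
    obtain ⟨x, hx, hx0, he⟩ := (mem_xSet hT).1 h
    rcases eq_or_eq_neg_of_xOf_eq (fun h' => hx0 (Subtype.ext h'))
      (fun h' => hQ0 (Subtype.ext h')) he with h' | h'
    · exact hQ (Subtype.ext h' ▸ hx)
    · refine hQ ?_
      have hxQ : x = -Q := Subtype.ext h'
      rw [hxQ] at hx
      simpa using C.neg_mem hx
  have hQR : xOf (Q : (E⁄Qbar).Point) ∈ R \ S :=
    Finset.mem_sdiff.2 ⟨(mem_xSet hT).2 ⟨Q, trivial, hQ0, rfl⟩, hQS⟩
  have hrest : 1 < A.valuation (∏ z ∈ R \ S, z) := by
    rw [map_prod]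
    exact one_lt_prod_map ⟨_, hQR⟩ fun z hz => hbig z (Finset.mem_sdiff.1 hz).1
  rw [← Finset.prod_sdiff hSR, map_mul, mul_assoc] at hprodR
  exact (hrest.trans_le (le_mul_of_one_le_right' hge)).not_ge hprodR

include hT hst in
/-- Whether the line reduces to the origin does not depend on the place over `p`. -/
lemma le_formalTors_of_le (hnode : NodeInput E) (h0 : C ≠ ⊥)
    {A B : ValuationSubring Qbar} (hA : A.LiesOverPrime p) (hB : B.LiesOverPrime p)
    (h : C.toAddSubgroup ≤ formalTors E p A (hnode p Fact.out A hA).1) :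
    ∃ x ∈ C, x ≠ 0 ∧ x ∈ formalTors E p B (hnode p Fact.out B hB).1 := by
  obtain ⟨r, hr⟩ := exists_rat_prod_eq hT hst (C := C)
  obtain ⟨c, hc, hc0⟩ := Submodule.exists_mem_ne_zero_of_ne_bot h0
  have hSne : (xSet hT (C : Set (Tors E p))).Nonempty :=
    ⟨_, (mem_xSet hT).2 ⟨c, hc, hc0, rfl⟩⟩
  have hSgt : 1 < A.valuation (∏ z ∈ xSet hT (C : Set _), z) := by
    rw [map_prod]
    have hbig : ∀ z ∈ xSet hT (C : Set (Tors E p)), 1 < A.valuation z := fun z hz => by
      obtain ⟨x, hx, hx0, rfl⟩ := (mem_xSet hT).1 hz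
      exact one_lt_valuation_xOf (fun e => hx0 (Subtype.ext e)) (h hx)
    exact one_lt_prod_map hSne hbig
  obtain ⟨⟨d, hd⟩, -⟩ := valuation_rat_ge hA (r := r) (by rw [hr]; exact hSgt)
  by_contra hcon
  push Not at hcon
  have hsmall : B.valuation (∏ z ∈ xSet hT (C : Set _), z) ≤ 1 := by
    rw [map_prod]
    refine Finset.prod_le_one' fun z hz => ?_
    obtain ⟨x, hx, hx0, rfl⟩ := (mem_xSet hT).1 hz
    have hx' := hcon x hx hx0
    rw [mem_formalTors] at hx'
    obtain ⟨P, hP⟩ := x
    cases P with
    | zero => exact absurd rfl hx0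
    | some a b _ => exact not_lt.1 hx'
  rw [← hr] at hsmall
  have hmul : algebraMap ℚ Qbar r * (r.den : Qbar) = (r.num : Qbar) := by
    rw [← map_natCast (algebraMap ℚ Qbar), ← map_mul, Rat.mul_den_eq_num, map_intCast]
  have hnum : B.valuation (r.num : Qbar) = 1 :=
    valuation_intCast_of_not_dvd Fact.out hB fun h => (Fact.out : p.Prime).not_dvd_one (by
      rw [← r.reduced.gcd_eq_one]
      exact Nat.dvd_gcd (Int.natCast_dvd.1 h) ⟨d, hd⟩)
  have hlt : B.valuation (algebraMap ℚ Qbar r * (r.den : Qbar)) < 1 := by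
    refine v_mul_lt_right hsmall ?_
    rw [hd, Nat.cast_mul]
    exact v_mul_lt_left hB ((B.valuation_le_one_iff _).2 (natCast_mem B d))
  rw [hmul, hnum] at hlt
  exact lt_irrefl _ hlt

include hT hst in
/-- Dichotomy for a stable line. -/
theorem fixed_or_cofixed (hM : MinkowskiInput) (hnode : NodeInput E)
    (h0 : C ≠ ⊥) (h1 : C ≠ ⊤) :
    (∀ σ : GalQ, ∀ x ∈ C, σ • x = x) ∨ ∀ σ : GalQ, ∀ x : Tors E p, σ • x - x ∈ C := by
  have hpp : p.Prime := Fact.out
  have := finite_tors hT
  -- a finite extension over which all the torsion is defined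
  let coords : Set Qbar := Set.range (fun x : Tors E p => xOf (x : (E⁄Qbar).Point)) ∪
    Set.range (fun x : Tors E p => match (x : (E⁄Qbar).Point) with | .zero => 0 | .some _ y _ => y)
  let L : IntermediateField ℚ Qbar := IntermediateField.adjoin ℚ coords
  have hcoords : coords.Finite := (Set.finite_range _).union (Set.finite_range _)
  have : Finite coords := hcoords.to_subtype
  have hL : FiniteDimensional ℚ L :=
    IntermediateField.finiteDimensional_adjoin fun z _ => Algebra.IsIntegral.isIntegral z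
  have hfix : ∀ σ ∈ L.fixingSubgroup, ∀ x : Tors E p, σ • x = x := by
    intro σ hσ x
    have hc : ∀ z ∈ coords, σ z = z := fun z hz =>
      (IntermediateField.mem_fixingSubgroup_iff L σ).1 hσ z (IntermediateField.subset_adjoin ℚ _ hz)
    have hcx := hc _ (Or.inl ⟨x, rfl⟩)
    have hcy := hc _ (Or.inr ⟨x, rfl⟩)
    obtain ⟨P, hP⟩ := x
    apply Subtype.ext
    cases P with
    | zero => rfl
    | some a b h =>
      show Point.map σ.toAlgHom (Point.some a b h) = Point.some a b h
      rw [Point.map_some]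
      congr 1
  by_cases hall : ∀ A : ValuationSubring Qbar, ∀ hA : A.LiesOverPrime p,
      ∀ x ∈ C, x ∈ formalTors E p A (hnode p hpp A hA).1 → x = 0
  · left
    let H : Subgroup GalQ :=
      { carrier := {σ | ∀ x ∈ C, σ • x = x}
        mul_mem' := fun {a b} ha hb x hx => by rw [mul_smul, hb x hx, ha x hx]
        one_mem' := fun x _ => one_smul _ x
        inv_mem' := fun {a} ha x hx => by rw [inv_smul_eq_iff, ha x hx] }
    have hH : H = ⊤ := hM H L hL (fun σ hσ x _ => hfix σ hσ x) fun q hq A hA σ hσ => by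
      refine fixed_of_sq hT hst h0 h1 fun x hx => ?_
      have hmem := smul_sub_smul_sub_mem hnode hq hA hσ x
      rcases eq_or_ne q p with rfl | hqp
      · refine hall A hA _ ?_ hmem
        exact C.sub_mem (hst σ _ (C.sub_mem (hst σ x hx) hx)) (C.sub_mem (hst σ x hx) hx)
      · rw [formalTors_eq_bot hT hpp hq hqp hA, AddSubgroup.mem_bot] at hmem
        exact hmem
    intro σ x hx
    exact (hH ▸ Subgroup.mem_top σ : σ ∈ H) x hx
  · right
    push Not at hall
    obtain ⟨A₀, hA₀, x₀, hx₀, hx₀F, hx₀0⟩ := hall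
    have hline : ∀ {B : ValuationSubring Qbar} (hB : B.LiesOverPrime p) {y : Tors E p},
        y ∈ C → y ∈ formalTors E p B (hnode p hpp B hB).1 → y ≠ 0 →
        C.toAddSubgroup ≤ formalTors E p B (hnode p hpp B hB).1 := by
      intro B hB y hy hyF hy0 z hz
      obtain ⟨c, hc⟩ := exists_smul_eq_of_finrank_eq_one (finrank_line hT h0 h1)
        (x := (⟨y, hy⟩ : C)) (fun e => hy0 (congrArg Subtype.val e)) ⟨z, hz⟩
      have he : c • y = z := congrArg Subtype.val hc
      rw [← he]
      exact ZMod.smul_mem hyF c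
    let H : Subgroup GalQ :=
      { carrier := {σ | ∀ x : Tors E p, σ • x - x ∈ C}
        mul_mem' := fun {a b} ha hb x => by
          have e : (a * b) • x - x = (a • (b • x) - b • x) + (b • x - x) := by rw [mul_smul]; abel
          rw [e]; exact C.add_mem (ha _) (hb x)
        one_mem' := fun x => by rw [one_smul, sub_self]; exact C.zero_mem
        inv_mem' := fun {a} ha x => by
          have := ha (a⁻¹ • x)
          rw [smul_inv_smul] at this
          simpa using C.neg_mem this }
    have hH : H = ⊤ := hM H L hL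
      (fun σ hσ x => by rw [hfix σ hσ x, sub_self]; exact C.zero_mem) fun q hq A hA σ hσ => by
      refine cofixed_of_sq hT hst h0 h1 fun x => ?_
      have hmem := smul_sub_smul_sub_mem hnode hq hA hσ x
      rcases eq_or_ne q p with rfl | hqp
      · -- the formal torsion is the line
        obtain ⟨y, hy, hy0, hyF⟩ :=
          le_formalTors_of_le hT hst hnode h0 hA₀ hA (hline hA₀ hx₀ hx₀F hx₀0)
        have hCF := hline hA hy hyF hy0
        set F := AddSubgroup.toZModSubmodule q (formalTors E q A (hnode q hpp A hA).1) with hF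
        have hle : C ≤ F := hCF
        have hFtop : F ≠ ⊤ := fun e => formalTors_ne_top hT hst h0 h1 hA (hnode q hpp A hA).1
          (eq_top_iff.2 fun z _ => (e ▸ Submodule.mem_top : z ∈ F))
        have heq : C = F := Submodule.eq_of_le_of_finrank_eq hle (by
          rw [finrank_line hT h0 h1, finrank_line hT (C := F)
            (fun e => h0 (le_bot_iff.1 (e ▸ hle))) hFtop])
        rw [heq]
        exact hmem
      · rw [formalTors_eq_bot hT hpp hq hqp hA, AddSubgroup.mem_bot] at hmem
        rw [hmem]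
        exact C.zero_mem
    intro σ
    exact (hH ▸ Subgroup.mem_top σ : σ ∈ H)

end Global

end

end Fermat.Agent.FreyReducible
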