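import Mathlib.AlgebraicGeometry.EllipticCurve.Affine.Point
import Mathlib.RingTheory.Valuation.Basic
import Mathlib.Tactic.LinearCombination

/-!
# Chords on a Weierstrass curve over a valued field

Elementary chord lemmas for Weierstrass curves over a valued field.

* `SmoothRed v P`: `P` is the origin, has non-integral `x`, or has nonsingular reduction.
* `InFormal v P`: `P` is the origin or has non-integral `x`.

The points with `InFormal` form a subgroup (`InFormal.add`), and two integral points which are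
congruent at a smooth point of the reduced curve differ by an element of it.
-/

set_option autoImplicit false

open WeierstrassCurve WeierstrassCurve.Affine

namespace Fermat.Agent.FreyReducible

variable {F : Type*} [Field F] {Γ : Type*} [LinearOrderedCommGroupWithZero Γ]
  (v : Valuation F Γ)

section aux

variable {v}

/-- A product of integral elements is integral. -/
lemma v_mul_le {x y : F} (hx : v x ≤ 1) (hy : v y ≤ 1) : v (x * y) ≤ 1 := by
  rw [map_mul]; exact mul_le_one' hx hy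

/-- A non-unit times an integral element is a non-unit. -/
lemma v_mul_lt_left {x y : F} (hx : v x < 1) (hy : v y ≤ 1) : v (x * y) < 1 := by
  rw [map_mul]
  exact (mul_le_mul_right hy (v x)).trans_lt (by rwa [mul_one])

/-- An integral element times a non-unit is a non-unit. -/
lemma v_mul_lt_right {x y : F} (hx : v x ≤ 1) (hy : v y < 1) : v (x * y) < 1 := by
  rw [mul_comm]; exact v_mul_lt_left hy hx

/-- Powers of integral elements are integral. -/
lemma v_pow_le {x : F} (hx : v x ≤ 1) (n : ℕ) : v (x ^ n) ≤ 1 := by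
  rw [map_pow]; exact pow_le_one₀ zero_le hx

lemma v_natCast_le (n : ℕ) : v (n : F) ≤ 1 := by
  induction n with
  | zero => simp
  | succ n ih => rw [Nat.cast_succ]; exact v.map_add_le ih v.map_one.le

/-- Numerals are integral. -/
lemma v_ofNat_le (n : ℕ) [n.AtLeastTwo] : v (OfNat.ofNat n : F) ≤ 1 :=
  v_natCast_le n

/-- A sum of a unit and a non-unit is a unit. -/
lemma v_eq_one_of_sub_lt {x y : F} (hx : v x = 1) (h : v (y - x) < 1) : v y = 1 := by
  have h' : v (y - x) < v x := by rwa [hx]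
  rw [v.map_eq_of_sub_lt h', hx]

lemma ne_zero_of_v_eq_one {x : F} (hx : v x = 1) : x ≠ 0 := by
  rintro rfl; simp at hx

/-- A quotient of a unit by a nonzero non-unit is not integral. -/
lemma one_lt_v_div {x y : F} (hx : v x = 1) (hy : v y < 1) (hy0 : y ≠ 0) : 1 < v (x / y) := by
  rw [map_div₀, hx, one_div]
  exact (one_lt_inv₀ (zero_lt_iff.2 ((Valuation.ne_zero_iff v).2 hy0))).2 hy

end aux

/-- The curve has integral coefficients. -/
structure IntegralCoeffs (W : Affine F) : Prop where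
  h₁ : v W.a₁ ≤ 1
  h₂ : v W.a₂ ≤ 1
  h₃ : v W.a₃ ≤ 1
  h₄ : v W.a₄ ≤ 1
  h₆ : v W.a₆ ≤ 1

variable {W : Affine F}

/-- `P` reduces to the origin. -/
def InFormal : W.Point → Prop
  | .zero => True
  | .some x _ _ => 1 < v x

/-- `P` reduces to the origin or to a nonsingular point. -/
def SmoothRed : W.Point → Prop
  | .zero => True
  | .some x y _ => 1 < v x ∨ v (2 * y + W.a₁ * x + W.a₃) = 1 ∨
      v (W.a₁ * y - (3 * x ^ 2 + 2 * W.a₂ * x + W.a₄)) = 1

variable {v}

@[simp] lemma inFormal_zero : InFormal v (0 : W.Point) := trivial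

@[simp] lemma smoothRed_zero : SmoothRed v (0 : W.Point) := trivial

/-- An affine point reduces to the origin iff its abscissa is not integral. -/
lemma inFormal_some {x y : F} (h : W.Nonsingular x y) :
    InFormal v (Point.some x y h) ↔ 1 < v x := Iff.rfl

/-- A point reducing to the origin has smooth reduction. -/
lemma InFormal.smoothRed {P : W.Point} (h : InFormal v P) : SmoothRed v P := by
  cases P with
  | zero => trivial
  | some x y h' => exact Or.inl h

/-- The points reducing to the origin are closed under negation. -/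
lemma InFormal.neg {P : W.Point} (h : InFormal v P) : InFormal v (-P) := by
  cases P with
  | zero => exact trivial
  | some x y h' => rw [Point.neg_some]; exact h

/-- An integral `x` forces an integral `y`. -/
lemma v_Y_le (hW : IntegralCoeffs v W) {x y : F} (h : W.Equation x y) (hx : v x ≤ 1) :
    v y ≤ 1 := by
  by_contra hy
  rw [not_le] at hy
  rw [equation_iff] at h
  have h1 : y * y = x ^ 3 + W.a₂ * x ^ 2 + W.a₄ * x + W.a₆ - (W.a₁ * x + W.a₃) * y := by
    linear_combination h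
  have hr : v (x ^ 3 + W.a₂ * x ^ 2 + W.a₄ * x + W.a₆) ≤ v y :=
    (v.map_add_le (v.map_add_le (v.map_add_le (v_pow_le hx 3) (v_mul_le hW.h₂ (v_pow_le hx 2)))
      (v_mul_le hW.h₄ hx)) hW.h₆).trans hy.le
  have hl : v ((W.a₁ * x + W.a₃) * y) ≤ v y := by
    rw [map_mul]
    exact mul_le_of_le_one_left' (v.map_add_le (v_mul_le hW.h₁ hx) hW.h₃)
  have h2 : v (y * y) ≤ v y := by rw [h1]; exact v.map_sub_le hr hl
  have h3 : v y * 1 < v y * v y :=
    mul_lt_mul_of_pos_left hy (zero_lt_one.trans hy)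
  rw [map_mul] at h2
  rw [mul_one] at h3
  exact h3.not_ge h2

/-- A non-integral slope through integral `x`'s gives a non-integral third `x`. -/
lemma one_lt_v_addX (hW : IntegralCoeffs v W) {x₁ x₂ l : F} (hx₁ : v x₁ ≤ 1) (hx₂ : v x₂ ≤ 1)
    (hl : 1 < v l) : 1 < v (W.addX x₁ x₂ l) := by
  have h2 : v l < v (l ^ 2) := by
    rw [map_pow, sq]
    simpa using mul_lt_mul_of_pos_left hl (zero_lt_one.trans hl)
  have hrest : v (W.a₁ * l - W.a₂ - x₁ - x₂) ≤ v l := by
    refine v.map_sub_le (v.map_sub_le (v.map_sub_le ?_ (hW.h₂.trans hl.le)) (hx₁.trans hl.le))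
      (hx₂.trans hl.le)
    rw [map_mul]; exact mul_le_of_le_one_left' hW.h₁
  have e : W.addX x₁ x₂ l = l ^ 2 + (W.a₁ * l - W.a₂ - x₁ - x₂) := by
    simp only [addX]; ring
  rw [e, v.map_add_eq_of_lt_left (hrest.trans_lt h2)]
  exact hl.trans h2

/-- The chord through a point and the negative of a congruent point, at a smooth point of the
reduction of `w² + a₁uw + a₃w = c u³ + a₂u² + a₄u + a₆`, has non-integral slope. -/
lemma one_lt_v_slope {c a₁ a₂ a₃ a₄ a₆ u₁ w₁ u₂ w₂ : F}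
    (hc : v c ≤ 1) (ha₁ : v a₁ ≤ 1) (ha₂ : v a₂ ≤ 1)
    (hu₁ : v u₁ ≤ 1) (hu₂ : v u₂ ≤ 1)
    (e₁ : w₁ ^ 2 + a₁ * u₁ * w₁ + a₃ * w₁ = c * u₁ ^ 3 + a₂ * u₁ ^ 2 + a₄ * u₁ + a₆)
    (e₂ : w₂ ^ 2 + a₁ * u₂ * w₂ + a₃ * w₂ = c * u₂ ^ 3 + a₂ * u₂ ^ 2 + a₄ * u₂ + a₆)
    (hu : v (u₁ - u₂) < 1) (hw : v (w₁ - w₂) < 1) (hne : u₁ ≠ u₂)
    (hs : v (2 * w₁ + a₁ * u₁ + a₃) = 1 ∨
      v (a₁ * w₁ - (3 * c * u₁ ^ 2 + 2 * a₂ * u₁ + a₄)) = 1) :
    1 < v ((w₁ + w₂ + a₁ * u₂ + a₃) / (u₁ - u₂)) := by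
  have hden : u₁ - u₂ ≠ 0 := sub_ne_zero.2 hne
  have hnum : v ((w₁ + w₂ + a₁ * u₂ + a₃) - (2 * w₁ + a₁ * u₁ + a₃)) < 1 := by
    rw [show (w₁ + w₂ + a₁ * u₂ + a₃) - (2 * w₁ + a₁ * u₁ + a₃)
      = -(w₁ - w₂) - a₁ * (u₁ - u₂) by ring]
    exact v.map_sub_lt (by rwa [v.map_neg]) (v_mul_lt_right ha₁ hu)
  by_cases hy : v (2 * w₁ + a₁ * u₁ + a₃) = 1
  · exact one_lt_v_div (v_eq_one_of_sub_lt hy hnum) hu hden
  have hx := hs.resolve_left hy
  by_cases hn1 : v (w₁ + w₂ + a₁ * u₂ + a₃) = 1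
  · exact one_lt_v_div hn1 hu hden
  set r := a₁ * (-w₂ - a₁ * u₂ - a₃) -
    (c * (u₁ ^ 2 + u₁ * u₂ + u₂ ^ 2) + a₂ * (u₁ + u₂) + a₄) with hr_def
  set g := w₁ - w₂ + a₁ * (u₁ - u₂) with hg_def
  have key : (w₁ + w₂ + a₁ * u₂ + a₃) * g + (u₁ - u₂) * r = 0 := by
    rw [hr_def, hg_def]; linear_combination e₁ - e₂
  have hg : v g < 1 := v.map_add_lt hw (v_mul_lt_right ha₁ hu)
  -- `r` is congruent to the partial derivative up to the integral multiple of the numerator
  have hsub : r - (a₁ * w₁ - (3 * c * u₁ ^ 2 + 2 * a₂ * u₁ + a₄)) =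
      -(a₁ * (w₁ + w₂ + a₁ * u₂ + a₃)) + (c * (2 * u₁ + u₂) + a₂) * (u₁ - u₂) := by
    rw [hr_def]; ring
  -- the numerator is a non-unit unless it is not integral
  by_cases hn2 : 1 < v (w₁ + w₂ + a₁ * u₂ + a₃)
  · rw [map_div₀]
    refine hn2.trans_le ?_
    rw [le_div_iff₀ (zero_lt_iff.2 ((Valuation.ne_zero_iff v).2 hden))]
    exact mul_le_of_le_one_right' hu.le
  have hnum1 : v (w₁ + w₂ + a₁ * u₂ + a₃) < 1 := lt_of_le_of_ne (not_lt.1 hn2) hn1
  have hr : v r = 1 := by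
    refine v_eq_one_of_sub_lt hx ?_
    rw [hsub]
    refine v.map_add_lt (by rw [v.map_neg]; exact v_mul_lt_right ha₁ hnum1)
      (v_mul_lt_right ?_ hu)
    exact v.map_add_le (v_mul_le hc (v.map_add_le (v_mul_le (v_ofNat_le 2) hu₁) hu₂)) ha₂
  have hg0 : g ≠ 0 := by
    intro h0; rw [h0, mul_zero, zero_add] at key
    exact mul_ne_zero hden (ne_zero_of_v_eq_one hr) key
  have : (w₁ + w₂ + a₁ * u₂ + a₃) / (u₁ - u₂) = -(r / g) := by
    rw [← neg_div, div_eq_div_iff hden hg0]; linear_combination key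
  rw [this, v.map_neg]
  exact one_lt_v_div hr hg hg0

variable [DecidableEq F]

lemma sub_some {x₁ y₁ x₂ y₂ : F} (h₁ : W.Nonsingular x₁ y₁) (h₂ : W.Nonsingular x₂ y₂) :
    Point.some x₁ y₁ h₁ - Point.some x₂ y₂ h₂ =
      Point.some x₁ y₁ h₁ + Point.some x₂ (W.negY x₂ y₂) ((nonsingular_neg ..).2 h₂) := by
  rw [sub_eq_add_neg, Point.neg_some]

/-- The difference of two points with different `x`. -/
lemma sub_some_of_ne {x₁ y₁ x₂ y₂ : F} (h₁ : W.Nonsingular x₁ y₁) (h₂ : W.Nonsingular x₂ y₂)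
    (hx : x₁ ≠ x₂) : ∃ (y₃ : F) (h₃ : W.Nonsingular
        (W.addX x₁ x₂ ((y₁ + y₂ + W.a₁ * x₂ + W.a₃) / (x₁ - x₂))) y₃),
      Point.some x₁ y₁ h₁ - Point.some x₂ y₂ h₂ = Point.some _ _ h₃ := by
  have hl : W.slope x₁ x₂ y₁ (W.negY x₂ y₂) = (y₁ + y₂ + W.a₁ * x₂ + W.a₃) / (x₁ - x₂) := by
    rw [slope_of_X_ne hx]; congr 1; simp only [negY]; ring
  rw [sub_some, Point.add_of_X_ne hx, ← hl]
  exact ⟨_, _, rfl⟩

/-- The double of a point which is not of order two, as a difference. -/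
lemma sub_some_neg {x y : F} (h : W.Nonsingular x y) (h' : W.Nonsingular x (W.negY x y))
    (hy : y ≠ W.negY x y) : ∃ (y₃ : F) (h₃ : W.Nonsingular
        (W.addX x x ((3 * x ^ 2 + 2 * W.a₂ * x + W.a₄ - W.a₁ * y) / (y - W.negY x y))) y₃),
      Point.some x y h - Point.some x (W.negY x y) h' = Point.some _ _ h₃ := by
  rw [sub_some]
  simp only [negY_negY]
  rw [Point.add_self_of_Y_ne hy, ← slope_of_Y_ne rfl hy]
  exact ⟨W.addY x x y (W.slope x x y y), nonsingular_add h h (fun e => hy e.2), rfl⟩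

/-- Points congruent at a smooth point of the reduction differ by a point reducing to `0`. -/
theorem inFormal_sub_of_congr (hW : IntegralCoeffs v W) {x₁ y₁ x₂ y₂ : F}
    (h₁ : W.Nonsingular x₁ y₁) (h₂ : W.Nonsingular x₂ y₂) (hx₁ : v x₁ ≤ 1) (hx₂ : v x₂ ≤ 1)
    (hx : v (x₁ - x₂) < 1) (hy : v (y₁ - y₂) < 1)
    (hs : v (2 * y₁ + W.a₁ * x₁ + W.a₃) = 1 ∨
      v (W.a₁ * y₁ - (3 * x₁ ^ 2 + 2 * W.a₂ * x₁ + W.a₄)) = 1) :
    InFormal v (Point.some x₁ y₁ h₁ - Point.some x₂ y₂ h₂) := by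
  by_cases hne : x₁ = x₂
  · subst hne
    by_cases hyy : y₁ = y₂
    · subst hyy; rw [sub_self]; trivial
    have hy₂ : y₂ = W.negY x₁ y₁ := by
      rcases Y_eq_of_X_eq h₁.1 h₂.1 rfl with h | h
      · exact absurd h hyy
      · rw [h, negY_negY]
    subst hy₂
    obtain ⟨y₃, h₃, e⟩ := sub_some_neg h₁ h₂ hyy
    rw [e, inFormal_some]
    refine one_lt_v_addX hW hx₁ hx₁ (one_lt_v_div ?_ hy (sub_ne_zero.2 hyy))
    have hfy : v (2 * y₁ + W.a₁ * x₁ + W.a₃) < 1 := by
      rwa [show 2 * y₁ + W.a₁ * x₁ + W.a₃ = y₁ - W.negY x₁ y₁ by simp only [negY]; ring]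
    rw [← hs.resolve_left hfy.ne, ← v.map_neg]
    congr 1; ring
  · obtain ⟨y₃, h₃, e⟩ := sub_some_of_ne h₁ h₂ hne
    rw [e, inFormal_some]
    refine one_lt_v_addX hW hx₁ hx₂ ?_
    have e₁ := (equation_iff _ _).1 h₁.1
    have e₂ := (equation_iff _ _).1 h₂.1
    refine one_lt_v_slope (c := 1) (a₂ := W.a₂) (a₄ := W.a₄) (a₆ := W.a₆) v.map_one.le hW.h₁ hW.h₂
      hx₁ hx₂ (by linear_combination e₁) (by linear_combination e₂) hx hy hne ?_
    simpa only [mul_one] using hs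

/-- The Vieta relation used for the subgroup property. -/
lemma chord_vieta {x₁ x₂ y₁ y₂ : F} (h₁ : W.Equation x₁ y₁) (h₂ : W.Equation x₂ y₂)
    (hxy : ¬(x₁ = x₂ ∧ y₁ = W.negY x₂ y₂)) :
    let l := W.slope x₁ x₂ y₁ y₂
    let n := W.negAddY x₁ x₂ y₁ l - l * W.addX x₁ x₂ l
    x₁ * x₂ + W.addX x₁ x₂ l * (x₁ + x₂) = W.a₄ - 2 * n * l - W.a₁ * n - W.a₃ * l := by
  intro l n
  have hp := addPolynomial_slope h₁ h₂ hxy
  rw [addPolynomial_eq] at hp
  have p0 := congrArg (Polynomial.eval 0) hp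
  have p1 := congrArg (Polynomial.eval 1) hp
  simp only [Cubic.toPoly, Polynomial.eval_neg, Polynomial.eval_add, Polynomial.eval_mul,
    Polynomial.eval_pow, Polynomial.eval_C, Polynomial.eval_X, Polynomial.eval_sub] at p0 p1
  simp only [n, l, negAddY, addX] at p0 p1 ⊢
  linear_combination p1 - p0

/-- The points reducing to the origin are closed under addition. -/
theorem InFormal.add (hW : IntegralCoeffs v W) {P Q : W.Point} (hP : InFormal v P)
    (hQ : InFormal v Q) : InFormal v (P + Q) := by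
  cases P with
  | zero => rw [← Point.zero_def, zero_add]; exact hQ
  | some x₁ y₁ h₁ =>
  cases Q with
  | zero => rw [← Point.zero_def, add_zero]; exact hP
  | some x₂ y₂ h₂ =>
  by_cases hxy : x₁ = x₂ ∧ y₁ = W.negY x₂ y₂
  · rw [Point.add_of_Y_eq hxy.1 hxy.2]; trivial
  rw [Point.add_some hxy, inFormal_some]
  by_contra hx₃
  rw [not_lt] at hx₃
  rw [inFormal_some] at hP hQ
  have hv := chord_vieta h₁.1 h₂.1 hxy
  simp only at hv
  set l := W.slope x₁ x₂ y₁ y₂ with hl_def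
  set x₃ := W.addX x₁ x₂ l with hx₃_def
  set y₃ := W.negAddY x₁ x₂ y₁ l with hy₃_def
  have hy₃ : v y₃ ≤ 1 := v_Y_le hW (equation_negAdd h₁.1 h₂.1 hxy) hx₃
  have hs : x₁ + x₂ = l ^ 2 + W.a₁ * l - W.a₂ - x₃ := by
    simp only [hx₃_def, addX]; ring
  have ht : x₁ * x₂ = W.a₄ - 2 * (y₃ - l * x₃) * l - W.a₁ * (y₃ - l * x₃) - W.a₃ * l
      - x₃ * (x₁ + x₂) := by linear_combination hv
  by_cases hl : v l ≤ 1
  · have hsle : v (x₁ + x₂) ≤ 1 := by
      rw [hs]
      exact v.map_sub_le (v.map_sub_le (v.map_add_le (v_pow_le hl 2) (v_mul_le hW.h₁ hl)) hW.h₂)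
        hx₃
    have hn : v (y₃ - l * x₃) ≤ 1 := v.map_sub_le hy₃ (v_mul_le hl hx₃)
    have htle : v (x₁ * x₂) ≤ 1 := by
      rw [ht]
      exact v.map_sub_le (v.map_sub_le (v.map_sub_le (v.map_sub_le hW.h₄
        (v_mul_le (v_mul_le (v_ofNat_le 2) hn) hl)) (v_mul_le hW.h₁ hn)) (v_mul_le hW.h₃ hl))
        (v_mul_le hx₃ hsle)
    rw [map_mul] at htle
    exact (one_lt_mul'' hP hQ).not_ge htle
  · rw [not_le] at hl
    have hl2 : v l ≤ v (l ^ 2) := by
      rw [map_pow, sq]; exact le_mul_of_one_le_left' hl.le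
    have h1l : (1 : Γ) ≤ v (l ^ 2) := hl.le.trans hl2
    have hlt : v (W.a₁ * l - W.a₂ - x₃) < v (l ^ 2) := by
      refine lt_of_le_of_lt ?_ (show v l < v (l ^ 2) by
        rw [map_pow, sq]; simpa using mul_lt_mul_of_pos_left hl (zero_lt_one.trans hl))
      refine v.map_sub_le (v.map_sub_le ?_ (hW.h₂.trans hl.le)) (hx₃.trans hl.le)
      rw [map_mul]; exact mul_le_of_le_one_left' hW.h₁
    have hseq : v (x₁ + x₂) = v (l ^ 2) := by
      rw [hs, show l ^ 2 + W.a₁ * l - W.a₂ - x₃ = l ^ 2 + (W.a₁ * l - W.a₂ - x₃) by ring,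
        v.map_add_eq_of_lt_left hlt]
    have hn : v (y₃ - l * x₃) ≤ v l := by
      refine v.map_sub_le (hy₃.trans hl.le) ?_
      rw [map_mul]; exact mul_le_of_le_one_right' hx₃
    have htle : v (x₁ * x₂) ≤ v (l ^ 2) := by
      rw [ht]
      refine v.map_sub_le (v.map_sub_le (v.map_sub_le (v.map_sub_le (hW.h₄.trans h1l) ?_) ?_) ?_) ?_
      · rw [map_mul, map_mul, map_pow, sq]
        exact mul_le_mul' ((mul_le_of_le_one_left' (v_ofNat_le 2)).trans hn) le_rfl
      · rw [map_mul]; exact (mul_le_of_le_one_left' hW.h₁).trans (hn.trans hl2)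
      · rw [map_mul]; exact (mul_le_of_le_one_left' hW.h₃).trans hl2
      · rw [map_mul, hseq]; exact mul_le_of_le_one_left' hx₃
    have hmax : v (x₁ + x₂) ≤ max (v x₁) (v x₂) := v.map_add x₁ x₂
    have h1 : v x₁ < v (x₁ * x₂) := by
      rw [map_mul]; simpa using mul_lt_mul_of_pos_left hQ (zero_lt_one.trans hP)
    have h2 : v x₂ < v (x₁ * x₂) := by
      rw [map_mul]; simpa using mul_lt_mul_of_pos_right hP (zero_lt_one.trans hQ)
    rw [hseq] at hmax
    exact absurd (htle.trans hmax) (not_le.2 (max_lt h1 h2))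

/-- The points reducing to the origin are closed under subtraction. -/
theorem InFormal.sub (hW : IntegralCoeffs v W) {P Q : W.Point} (hP : InFormal v P)
    (hQ : InFormal v Q) : InFormal v (P - Q) := by
  rw [sub_eq_add_neg]; exact hP.add hW hQ.neg

end Fermat.Agent.FreyReducible
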