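import Fermat.Agent.FreyReducible.Dichotomy
import Fermat.Agent.FreyModel.Basic
import Fermat.Agent.ECTorsion.Galois

/-!
# The local and torsion properties of the Frey curve

The hypotheses of `FreyReducible.fixed_or_cofixed` hold for the Frey curve: inertia moves every
point into the smooth locus of the reduction, and the `p`-torsion has `p²` points whose abscissae
are roots of an integral polynomial with leading coefficient `p`.
-/

set_option autoImplicit false

open WeierstrassCurve WeierstrassCurve.Affine Polynomial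

namespace Fermat.Agent.FreyReducible

open Fermat.Agent.GaloisBasics (Qbar GalQ)
open Fermat.Agent

noncomputable section

variable (P : FreyPackage)

/-- The Frey curve over the algebraic closure of `ℚ`. -/
abbrev freyBar : Affine Qbar := P.freyCurve⁄Qbar

/-- `a₁ = 1` on the Frey curve. -/
lemma freyBar_a₁ : (freyBar P).a₁ = 1 := by
  simp [freyBar, FreyPackage.freyCurve, WeierstrassCurve.baseChange, WeierstrassCurve.map]

/-- `a₃ = 0` on the Frey curve. -/
lemma freyBar_a₃ : (freyBar P).a₃ = 0 := by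
  simp [freyBar, FreyPackage.freyCurve, WeierstrassCurve.baseChange, WeierstrassCurve.map]

/-- `a₆ = 0` on the Frey curve. -/
lemma freyBar_a₆ : (freyBar P).a₆ = 0 := by
  simp [freyBar, FreyPackage.freyCurve, WeierstrassCurve.baseChange, WeierstrassCurve.map]

/-- `a₂` of the Frey curve is integral. -/
lemma freyBar_a₂ : (freyBar P).a₂ = (P.freyCurveInt.a₂ : Qbar) := by
  show algebraMap ℚ Qbar P.freyCurve.a₂ = _
  rw [← FreyModel.map_freyCurveInt P]
  exact map_intCast (algebraMap ℚ Qbar) _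

/-- `a₄` of the Frey curve is integral. -/
lemma freyBar_a₄ : (freyBar P).a₄ = (P.freyCurveInt.a₄ : Qbar) := by
  show algebraMap ℚ Qbar P.freyCurve.a₄ = _
  rw [← FreyModel.map_freyCurveInt P]
  exact map_intCast (algebraMap ℚ Qbar) _

lemma freyCurve_Δ_ne_zero : P.freyCurve.Δ ≠ 0 := by
  rw [← FreyModel.map_freyCurveInt P, WeierstrassCurve.map_Δ]
  simpa using FreyModel.freyCurveInt_Δ_ne_zero P

lemma freyCurveInt_Δ_eq : P.freyCurveInt.Δ = P.freyCurveInt.a₄ ^ 2 *
    ((1 + 4 * P.freyCurveInt.a₂) ^ 2 - 64 * P.freyCurveInt.a₄) := by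
  simp only [WeierstrassCurve.Δ, WeierstrassCurve.b₂, WeierstrassCurve.b₄, WeierstrassCurve.b₆,
    WeierstrassCurve.b₈, show P.freyCurveInt.a₁ = 1 from rfl,
    show P.freyCurveInt.a₃ = 0 from rfl, show P.freyCurveInt.a₆ = 0 from rfl]
  ring

lemma freyCurveInt_c₄_eq :
    P.freyCurveInt.c₄ = (1 + 4 * P.freyCurveInt.a₂) ^ 2 - 3 * (16 * P.freyCurveInt.a₄) := by
  simp only [WeierstrassCurve.c₄, WeierstrassCurve.b₂, WeierstrassCurve.b₄,
    show P.freyCurveInt.a₁ = 1 from rfl, show P.freyCurveInt.a₃ = 0 from rfl]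
  ring

/-- `a₄` of the Frey curve is nonzero. -/
lemma freyCurveInt_a₄_ne_zero : P.freyCurveInt.a₄ ≠ 0 := fun h =>
  FreyModel.freyCurveInt_Δ_ne_zero P (by rw [freyCurveInt_Δ_eq, h]; ring)

lemma fixesCoeffs (σ : GalQ) : FixesCoeffs (σ : Qbar →+* Qbar) (freyBar P) :=
  ⟨σ.commutes _, σ.commutes _, σ.commutes _, σ.commutes _, σ.commutes _⟩

lemma integralCoeffs_freyBar (A : ValuationSubring Qbar) :
    IntegralCoeffs A.valuation (freyBar P) := by
  refine ⟨?_, ?_, ?_, ?_, ?_⟩
  · rw [freyBar_a₁]; simp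
  · rw [freyBar_a₂]; exact (A.valuation_le_one_iff _).2 (intCast_mem A _)
  · rw [freyBar_a₃]; simp
  · rw [freyBar_a₄]; exact (A.valuation_le_one_iff _).2 (intCast_mem A _)
  · rw [freyBar_a₆]; simp

lemma twoTorsionAt_zero (A : ValuationSubring Qbar) :
    TwoTorsionAt A.valuation (freyBar P) 0 0 where
  integral := integralCoeffs_freyBar P A
  hx₀ := by simp
  hy₀ := by simp
  equation := by rw [equation_iff, freyBar_a₆]; ring
  polyY := by rw [freyBar_a₃]; ring

lemma coA_zero : coA (freyBar P) 0 = (P.freyCurveInt.a₂ : Qbar) := by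
  rw [coA, freyBar_a₂]; ring

lemma coB_zero : coB (freyBar P) 0 0 = (P.freyCurveInt.a₄ : Qbar) := by
  rw [coB, freyBar_a₄]; ring

/-- Inertia moves every point of the Frey curve into the smooth locus of the reduction. -/
theorem nodeInput_frey : NodeInput (P.freyCurve : Affine ℚ) := by
  intro q hq A hA
  have hint := integralCoeffs_freyBar P A
  refine ⟨hint, fun σ hσ Q => ?_⟩
  have hqI : Prime (q : ℤ) := Nat.prime_iff_prime_int.1 hq
  have hin := inertial_of_mem hσ
  have hlt : ∀ n : ℤ, (q : ℤ) ∣ n → A.valuation (n : Qbar) < 1 := by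
    rintro n ⟨m, rfl⟩
    push_cast
    exact v_mul_lt_left hA ((A.valuation_le_one_iff _).2 (intCast_mem A m))
  have hunit : ∀ n : ℤ, ¬ (q : ℤ) ∣ n → A.valuation (n : Qbar) = 1 := fun n h =>
    valuation_intCast_of_not_dvd hq hA h
  by_cases hΔ : (q : ℤ) ∣ P.freyCurveInt.Δ
  swap
  · rw [freyCurveInt_Δ_eq] at hΔ
    refine smoothRed_of_good (twoTorsionAt_zero P A) ?_ ?_ _
    · rw [coB_zero]
      exact hunit _ fun h => hΔ (dvd_mul_of_dvd_left (dvd_pow h two_ne_zero) _)
    · rw [coA_zero, coB_zero, freyBar_a₁]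
      have := hunit _ fun h => hΔ (dvd_mul_of_dvd_right h (P.freyCurveInt.a₄ ^ 2))
      push_cast at this
      rw [one_pow]
      exact this
  have key : ∀ {x₀ y₀ : Qbar}, NodeAt A.valuation (freyBar P) x₀ y₀ → σ x₀ = x₀ → σ y₀ = y₀ →
      SmoothRed A.valuation (σ • Q - Q) := by
    intro x₀ y₀ hN hx hy
    have h := hN.smoothRed_sub_self hin (fixesCoeffs P σ) hx hy (isImage_smul σ Q)
    rw [← neg_sub] at h
    generalize σ • Q - Q = R at h ⊢
    cases R with
    | zero => trivial
    | some x y hxy =>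
      rw [Point.neg_some] at h
      rcases h with h | h | h
      · exact Or.inl h
      · refine Or.inr (Or.inl ?_)
        rw [← h, ← A.valuation.map_neg]
        congr 1
        simp only [negY]; ring
      · by_cases hx1 : 1 < A.valuation x
        · exact Or.inl hx1
        -- the other partial derivative changes by a multiple of the first
        rcases smooth_or_singular hint hxy (not_lt.1 hx1) with h' | ⟨h1, h2⟩
        · exact h'
        exfalso
        refine (lt_of_eq_of_lt h.symm ?_).false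
        rw [show (freyBar P).a₁ * (freyBar P).negY x y -
            (3 * x ^ 2 + 2 * (freyBar P).a₂ * x + (freyBar P).a₄) =
            ((freyBar P).a₁ * y - (3 * x ^ 2 + 2 * (freyBar P).a₂ * x + (freyBar P).a₄)) -
              (freyBar P).a₁ * (2 * y + (freyBar P).a₁ * x + (freyBar P).a₃) by
          simp only [negY]; ring]
        exact A.valuation.map_sub_lt h2 (v_mul_lt_right hint.h₁ h1)
  have hss := FreyModel.freyCurveInt_isSemistableModel P q hq hΔ
  by_cases h4 : (q : ℤ) ∣ P.freyCurveInt.a₄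
  · -- the node is at the origin
    have hD : ¬ (q : ℤ) ∣ 1 + 4 * P.freyCurveInt.a₂ := fun h => hss (by
      rw [freyCurveInt_c₄_eq]
      exact dvd_sub (dvd_pow h two_ne_zero) (dvd_mul_of_dvd_right (dvd_mul_of_dvd_right h4 _) _))
    refine key (x₀ := 0) (y₀ := 0) ⟨twoTorsionAt_zero P A, ?_, ?_, ?_⟩ (map_zero σ) (map_zero σ)
    · rw [coB_zero]; exact hlt _ h4
    · rw [coB_zero]; exact Int.cast_ne_zero.2 (freyCurveInt_a₄_ne_zero P)
    · rw [freyBar_a₁, coA_zero, one_pow]
      have := hunit _ hD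
      push_cast at this
      exact this
  -- otherwise `q ∣ a ^ p + b ^ p` and the node is at `(a ^ p / 4, -a ^ p / 8)`
  set α : ℤ := P.a ^ P.p with hα
  set β : ℤ := P.b ^ P.p with hβ
  have e2 : 4 * P.freyCurveInt.a₂ = β - 1 - α := FreyModel.four_mul_a₂ P
  have e4 : 16 * P.freyCurveInt.a₄ = -α * β := FreyModel.sixteen_mul_a₄ P
  have hsq : (q : ℤ) ∣ (1 + 4 * P.freyCurveInt.a₂) ^ 2 - 64 * P.freyCurveInt.a₄ := by
    rw [freyCurveInt_Δ_eq] at hΔ
    exact (hqI.dvd_mul.1 hΔ).resolve_left fun h => h4 (hqI.dvd_of_dvd_pow h)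
  have hq2 : q ≠ 2 := by
    rintro rfl
    have : (2 : ℤ) ∣ (1 + 4 * P.freyCurveInt.a₂) ^ 2 := by
      have h := dvd_add hsq (show (2 : ℤ) ∣ 64 * P.freyCurveInt.a₄ from
        dvd_mul_of_dvd_left (by norm_num) _)
      simpa using h
    have := Int.prime_two.dvd_of_dvd_pow this
    omega
  have hsum : (q : ℤ) ∣ α + β := by
    refine hqI.dvd_of_dvd_pow (n := 2) ?_
    rw [show (α + β) ^ 2 = (1 + 4 * P.freyCurveInt.a₂) ^ 2 - 64 * P.freyCurveInt.a₄ by
      linear_combination -(1 + 4 * P.freyCurveInt.a₂ + β - α) * e2 + 4 * e4]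
    exact hsq
  have hα' : ¬ (q : ℤ) ∣ α := by
    intro h
    have hb : (q : ℤ) ∣ β := by simpa using dvd_sub hsum h
    exact hqI.not_isUnit (((FreyModel.isCoprime_a_b P).pow (m := P.p) (n := P.p)).isUnit_of_dvd'
      h hb)
  have h2v : A.valuation (2 : Qbar) = 1 := by
    have := hunit 2 fun h => hq2 ((Nat.prime_dvd_prime_iff_eq hq Nat.prime_two).1
      (by exact_mod_cast h))
    exact_mod_cast this
  have h4v : A.valuation (4 : Qbar) = 1 := by
    rw [show (4 : Qbar) = 2 * 2 by norm_num, map_mul, h2v, one_mul]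
  have h8v : A.valuation (8 : Qbar) = 1 := by
    rw [show (8 : Qbar) = 2 * 4 by norm_num, map_mul, h2v, h4v, one_mul]
  have h16v : A.valuation (16 : Qbar) = 1 := by
    rw [show (16 : Qbar) = 4 * 4 by norm_num, map_mul, h4v, one_mul]
  have ha₂ : (freyBar P).a₂ = ((β : Qbar) - 1 - α) / 4 := by
    rw [freyBar_a₂, eq_div_iff (by norm_num)]
    have := congrArg (Int.cast (R := Qbar)) e2
    push_cast at this
    linear_combination this
  have ha₄ : (freyBar P).a₄ = -(α : Qbar) * β / 16 := by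
    rw [freyBar_a₄, eq_div_iff (by norm_num)]
    have := congrArg (Int.cast (R := Qbar)) e4
    push_cast at this
    linear_combination this
  have hαle : A.valuation (α : Qbar) ≤ 1 := (A.valuation_le_one_iff _).2 (intCast_mem A _)
  have hB : coB (freyBar P) ((α : Qbar) / 4) (-(α : Qbar) / 8) =
      (α : Qbar) * ((α + β : ℤ) : Qbar) / 16 := by
    rw [coB, ha₂, ha₄, freyBar_a₁]; push_cast; field_simp; ring
  refine key (x₀ := (α : Qbar) / 4) (y₀ := -(α : Qbar) / 8) ⟨⟨hint, ?_, ?_, ?_, ?_⟩, ?_, ?_, ?_⟩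
    (by rw [map_div₀, map_intCast, map_ofNat]) (by rw [map_div₀, map_neg, map_intCast, map_ofNat])
  · rw [map_div₀, h4v, div_one]; exact hαle
  · rw [map_div₀, h8v, div_one, Valuation.map_neg]; exact hαle
  · rw [equation_iff, freyBar_a₁, freyBar_a₃, freyBar_a₆, ha₂, ha₄]; field_simp; ring
  · rw [freyBar_a₁, freyBar_a₃]; field_simp; ring
  · rw [hB, map_div₀, h16v, div_one]
    exact v_mul_lt_right hαle (hlt _ hsum)
  · rw [hB]
    refine div_ne_zero (mul_ne_zero (Int.cast_ne_zero.2 ?_) (Int.cast_ne_zero.2 ?_)) (by norm_num)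
    · exact pow_ne_zero _ P.ha0
    · rw [hα, hβ, P.hFLT]; exact pow_ne_zero _ P.hc0
  · rw [freyBar_a₁, coA, ha₂]
    rw [show (1 : Qbar) ^ 2 + 4 * (((β : Qbar) - 1 - α) / 4 + 3 * ((α : Qbar) / 4)) =
      (((α + β) + α : ℤ) : Qbar) by push_cast; field_simp; ring]
    refine hunit _ fun h => hα' ?_
    simpa using dvd_sub h hsum

/-- The Frey curve's `p`-torsion has `p²` points, and a polynomial as in `TorsionInput`. -/
theorem torsionInput_frey : TorsionInput (P.freyCurve : Affine ℚ) P.p where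
  card := ECTorsion.card_torsionBy_rat P.freyCurve (freyCurve_Δ_ne_zero P) P.hp0
  poly := by
    have hodd : ¬ Even P.p := Nat.not_even_iff_odd.2 P.hp_odd
    have hp0 : (P.p : ℤ) ≠ 0 := by exact_mod_cast P.hp0
    refine ⟨P.freyCurveInt.preΨ' P.p, ?_, ?_, fun x y h hxy => ?_⟩
    · rw [P.freyCurveInt.natDegree_preΨ' hp0, if_neg hodd]
    · rw [P.freyCurveInt.leadingCoeff_preΨ' hp0, if_neg hodd]
    · have h0 := (ECTorsion.nsmul_eq_zero_iff h P.p).1 hxy
      rw [WeierstrassCurve.ΨSq_ofNat, if_neg hodd, mul_one, eval_pow,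
        pow_eq_zero_iff two_ne_zero] at h0
      have e : (P.freyCurve⁄Qbar) = P.freyCurveInt.map (algebraMap ℤ Qbar) := by
        rw [← FreyModel.map_freyCurveInt P]
        show (P.freyCurveInt.map _).map (algebraMap ℚ Qbar) = _
        rw [WeierstrassCurve.map_map]
        congr 1
      have h1 : ((P.freyCurveInt.map (algebraMap ℤ Qbar)).preΨ' P.p).eval x = 0 :=
        (congrArg (fun W : WeierstrassCurve Qbar => (W.preΨ' P.p).eval x) e).symm.trans h0
      rw [WeierstrassCurve.map_preΨ', eval_map] at h1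
      exact h1

end

end Fermat.Agent.FreyReducible
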